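import Fermat.Agent.Hasse.Main
import Fermat.Agent.Local.GoodReduction
import Fermat.Agent.RT.Frobenius
import Fermat.Prelude.Def_EllipticCurve_FrobeniusTrace

/-!
# Frobenius elements on torsion at a prime of good reduction

For `W` over `ℤ`, a good prime `ℓ`, a place `A` over `ℓ` with Frobenius element `σ`, and a point `P`
of order dividing `n`, `ℓ ∤ n`: `σ² P - a_ℓ σ P + ℓ P = 0`, also for every good `ℓ` including 2, 3.
-/

set_option autoImplicit false

open scoped WeierstrassCurve.Affine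

namespace FermatAgent.Hasse

open WeierstrassCurve FermatAgent.Local Polynomial

local notation "Qb" => AlgebraicClosure ℚ

variable {ℓ : ℕ} [Fact ℓ.Prime] {A : ValuationSubring Qb}

lemma charP_residueField (hA : A.LiesOverPrime ℓ) : CharP (IsLocalRing.ResidueField A) ℓ := by
  refine CharP.charP_iff_prime_eq_zero (Fact.out : ℓ.Prime) |>.2 ?_
  rw [← map_natCast (IsLocalRing.residue A), IsLocalRing.residue_eq_zero_iff,
    ValuationSubring.valuation_lt_one_iff]
  have h' : A.valuation (ℓ : Qb) < 1 := hA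
  simpa using h'

lemma isAlgebraic_residueField (hA : A.LiesOverPrime ℓ)
    [Algebra (ZMod ℓ) (IsLocalRing.ResidueField A)] :
    Algebra.IsAlgebraic (ZMod ℓ) (IsLocalRing.ResidueField A) := by
  refine ⟨fun z => ?_⟩
  obtain ⟨⟨x, hx⟩, rfl⟩ := IsLocalRing.residue_surjective z
  obtain ⟨a, s, hs, h⟩ := RT.exists_mul_eq_of_mem (Fact.out : ℓ.Prime) hA hx
  set g : integralClosure ℤ Qb →+* IsLocalRing.ResidueField A :=
    (IsLocalRing.residue A).comp (RT.intClosureToPlace A)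
  have hint : ∀ b, IsAlgebraic (ZMod ℓ) (g b) := fun b => by
    obtain ⟨p, hm, hp⟩ := (Algebra.IsIntegral.isIntegral (R := ℤ) b :)
    refine IsIntegral.isAlgebraic ⟨p.map (Int.castRingHom (ZMod ℓ)), hm.map _, ?_⟩
    rw [eval₂_map, RingHom.ext_int ((algebraMap (ZMod ℓ) _).comp (Int.castRingHom (ZMod ℓ)))
      (g.comp (algebraMap ℤ _)), ← hom_eval₂, hp, map_zero]
  have hgs : g s ≠ 0 := fun e => hs ((IsLocalRing.residue_eq_zero_iff _).1 e)
  have heq : IsLocalRing.residue A ⟨x, hx⟩ = g a * (g s)⁻¹ := by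
    rw [eq_mul_inv_iff_mul_eq₀ hgs]
    show IsLocalRing.residue A _ * IsLocalRing.residue A _ = IsLocalRing.residue A _
    rw [← map_mul]
    exact congrArg _ (Subtype.ext h)
  rw [heq]
  exact (hint a).mul (hint s).inv

omit [Fact (Nat.Prime ℓ)] in
lemma residue_frob {σ : Qb ≃ₐ[ℚ] Qb} (hσ : A.IsFrobeniusAt σ ℓ) {x : Qb} (hx : x ∈ A)
    (hσx : σ x ∈ A) :
    IsLocalRing.residue A ⟨σ x, hσx⟩ = IsLocalRing.residue A ⟨x, hx⟩ ^ ℓ := by
  rw [← hσ.smul_residue_eq, ← IsLocalRing.ResidueField.residue_smul]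
  rfl

/-- Frobenius satisfies `X² - a_ℓ X + ℓ` on torsion of order prime to `ℓ`. -/
theorem frobenius_smul_char (W : WeierstrassCurve ℤ) (hgood : ¬ (ℓ : ℤ) ∣ W.Δ)
    (hA : A.LiesOverPrime ℓ) {σ : Qb ≃ₐ[ℚ] Qb} (hσ : A.IsFrobeniusAt σ ℓ) {n : ℕ} (hn : ¬ ℓ ∣ n)
    {P : (qbarCurve W).Point} (hP : n • P = 0) :
    σ • σ • P - W.apOfModel ℓ • (σ • P) + (ℓ : ℤ) • P = 0 := by
  classical
  have hℓ : ℓ.Prime := Fact.out
  have := charP_residueField (ℓ := ℓ) hA
  let : Algebra (ZMod ℓ) (IsLocalRing.ResidueField A) := ZMod.algebra _ ℓ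
  have := isAlgebraic_residueField (ℓ := ℓ) hA
  have : NeZero ℓ := ⟨hℓ.ne_zero⟩
  set π := IsLocalRing.residue A with hπ
  set k := IsLocalRing.ResidueField A
  set Wl := W.reductionMod ℓ with hWl
  have hΔl : Wl.Δ ≠ 0 := by
    rw [hWl, WeierstrassCurve.reductionMod, WeierstrassCurve.map_Δ, eq_intCast, ne_eq,
      ZMod.intCast_zmod_eq_zero_iff_dvd]
    exact hgood
  have hW := qbarCurve_intCoeffs W A
  have hgoodpl : GoodPlace A (qbarCurve W) π :=
    { intCoeffs := hW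
      val_lt_one_iff := fun z => by
        rw [hπ, IsLocalRing.residue_eq_zero_iff, ValuationSubring.valuation_lt_one_iff]
      disc := by rw [qbarCurve_Δ]; exact val_intCast_eq_one hℓ hA hgood }
  have hcurve : hgoodpl.redCurve = (Wl.toAffine⁄k) := by
    have hc : ∀ (m : ℤ) (z : Qb) (hz : z ∈ A), z = (m : Qb) →
        π ⟨z, hz⟩ = algebraMap (ZMod ℓ) k (m : ZMod ℓ) := by
      intro m z hz e
      subst e
      rw [map_intCast, ← map_intCast π]
      rfl
    ext
    · exact hc W.a₁ _ _ (by rw [qbarCurve_eq]; rfl)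
    · exact hc W.a₂ _ _ (by rw [qbarCurve_eq]; rfl)
    · exact hc W.a₃ _ _ (by rw [qbarCurve_eq]; rfl)
    · exact hc W.a₄ _ _ (by rw [qbarCurve_eq]; rfl)
    · exact hc W.a₆ _ _ (by rw [qbarCurve_eq]; rfl)
  set ρ : (qbarCurve W).Point →+ (Wl.toAffine⁄k).Point :=
    (castPoint hcurve).comp hgoodpl.redHom with hρ
  have hρσ : ∀ Q : (qbarCurve W).Point, ρ (σ • Q) = frobMap Wl k (ρ Q) := by
    rintro (_ | ⟨x, y, h⟩)
    · show ρ 0 = frobMap Wl k (ρ 0)
      rw [map_zero, map_zero]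
    rw [galois_smul_eq_conjPoint, conjPoint_some, hρ, AddMonoidHom.comp_apply,
      AddMonoidHom.comp_apply, GoodPlace.redHom_apply, GoodPlace.redHom_apply]
    by_cases hx : x ∈ A
    · have hy := y_mem_of_x_mem hW h.1 hx
      have hσx : σ x ∈ A := (decomposition_mem_iff hσ.mem_decompositionSubgroup x).2 hx
      rw [hgoodpl.red_some _ hx, hgoodpl.red_some _ (show (σ : Qb →+* Qb) x ∈ A from hσx),
        castPoint_some, castPoint_some, frobMap, Affine.Point.map_some, Affine.Point.some.injEq]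
      simp only [FiniteField.coe_frobeniusAlgHom, ZMod.card]
      exact ⟨residue_frob hσ hx _, residue_frob hσ hy _⟩
    · have hσx : σ x ∉ A := fun hh =>
        hx ((decomposition_mem_iff hσ.mem_decompositionSubgroup x).1 hh)
      rw [hgoodpl.red_some_of_not_mem _ hx,
        hgoodpl.red_some_of_not_mem _ (show (σ : Qb →+* Qb) x ∉ A from hσx), map_zero, map_zero]
  set G := σ • σ • P - W.apOfModel ℓ • (σ • P) + (ℓ : ℤ) • P
  have hkey : n • G = 0 := by
    have h1 : ∀ Q : (qbarCurve W).Point, n • Q = 0 → n • (σ • Q) = 0 := fun Q hQ => by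
      rw [galois_smul_eq_conjPoint, ← map_nsmul, hQ, map_zero]
    simp only [G, nsmul_add, nsmul_sub, smul_comm n (W.apOfModel ℓ), smul_comm n (ℓ : ℤ),
      h1 _ (h1 _ hP), h1 _ hP, hP]
    rw [zsmul_zero (W.apOfModel ℓ), zsmul_zero (ℓ : ℤ), sub_zero, add_zero]
  refine hgoodpl.eq_zero_of_red_eq_zero (n := n) ?_ hkey ?_
  · rw [ne_eq, CharP.cast_eq_zero_iff k ℓ]; exact hn
  · rw [← castPoint_eq_zero_iff hcurve]
    show ρ G = 0
    have h0 := frobenius_char_eq (W := Wl) hΔl (ρ P)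
    simp only [G, map_add, map_sub, map_zsmul, hρσ]
    convert h0 using 3
    · rfl
    · rw [ZMod.card]

end FermatAgent.Hasse
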