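import Fermat.Agent.Hasse.Frobenius

/-!
# `deg x(φ - Q) = #E(F)`
-/

set_option autoImplicit false

namespace FermatAgent.Hasse

open WeierstrassCurve Polynomial
open scoped WeierstrassCurve.Affine

variable {F : Type*} [Field F] [Fintype F] {W : WeierstrassCurve F}

local notation "q" => Fintype.card F

/-- Evaluation of the coordinate ring at an algebraic point. -/
noncomputable def evalAlg {Ω : Type*} [Field Ω] [Algebra F Ω] {c β : Ω}
    (h : (W.toAffine⁄Ω).Equation c β) : W.toAffine.CoordinateRing →ₐ[F] Ω :=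
  AdjoinRoot.liftAlgHom W.toAffine.polynomial (aeval c) β (by
    rw [Affine.equation_iff'] at h
    have e1 : (W.toAffine⁄Ω).a₁ = algebraMap F Ω W.a₁ := rfl
    have e2 : (W.toAffine⁄Ω).a₂ = algebraMap F Ω W.a₂ := rfl
    have e3 : (W.toAffine⁄Ω).a₃ = algebraMap F Ω W.a₃ := rfl
    have e4 : (W.toAffine⁄Ω).a₄ = algebraMap F Ω W.a₄ := rfl
    have e6 : (W.toAffine⁄Ω).a₆ = algebraMap F Ω W.a₆ := rfl
    rw [e1, e2, e3, e4, e6] at h
    simp [WeierstrassCurve.Affine.polynomial, eval₂_pow]
    linear_combination h)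

omit [Fintype F] in
lemma evalAlg_algebraMap {Ω : Type*} [Field Ω] [Algebra F Ω] {c β : Ω}
    (h : (W.toAffine⁄Ω).Equation c β) (p : F[X]) :
    evalAlg h (algebraMap F[X] W.toAffine.CoordinateRing p) = aeval c p :=
  AdjoinRoot.liftAlgHom_of ..

omit [Fintype F] in
lemma evalAlg_root {Ω : Type*} [Field Ω] [Algebra F Ω] {c β : Ω}
    (h : (W.toAffine⁄Ω).Equation c β) : evalAlg h (AdjoinRoot.root _) = β :=
  AdjoinRoot.liftAlgHom_root ..

lemma prodPoly_eval_ne_zero (hΔ : W.Δ ≠ 0) {c : F} (hS : (sumPoly W).eval c = 0) :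
    (prodPoly W).eval c ≠ 0 := by
  have : W.IsElliptic := ⟨isUnit_iff_ne_zero.2 hΔ⟩
  intro hP
  simp only [sumPoly, prodPoly, eval_add, eval_sub, eval_mul, eval_pow, eval_C, eval_X,
    FiniteField.pow_card] at hS hP
  refine addSubMap_ne_zero W (x := ![c * c, c + c, 1]) ?_ (funext fun i => ?_)
  · intro e; simpa using congrFun e 2
  · rw [← asMap_eq_eval]
    fin_cases i <;> simp [asMap]
    · linear_combination hP
    · linear_combination hS
    · ring

open Classical in
/-- The number of points with given abscissa. -/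
noncomputable def fibreCard (W : WeierstrassCurve F) (c : F) : ℕ :=
  (Finset.univ.filter fun y : F => W.toAffine.Equation c y).card

lemma card_point_eq (hΔ : W.Δ ≠ 0) :
    Nat.card W.toAffine.Point = 1 + ∑ c : F, fibreCard W c := by
  classical
  have : W.toAffine.IsElliptic := ⟨isUnit_iff_ne_zero.2 hΔ⟩
  rw [Nat.card_congr W.toAffine.pointEquiv]
  have e1 : Nat.card {xy : F × F // W.toAffine.Equation xy.1 xy.2} = ∑ c : F, fibreCard W c := by
    rw [Nat.card_eq_fintype_card, Fintype.card_subtype]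
    have h := Finset.card_sigma Finset.univ fun c : F =>
      Finset.univ.filter fun y : F => W.toAffine.Equation c y
    rw [show (∑ c : F, fibreCard W c) = _ from h.symm]
    exact Finset.card_bij (fun p _ => ⟨p.1, p.2⟩) (by simp) (by simp +contextual [Prod.ext_iff])
      (fun p hp => ⟨(p.1, p.2), by simpa using hp, rfl⟩)
  rw [← e1, show Nat.card (WithZero _) = _ from Finite.card_option, add_comm]

lemma X_pow_card_sub_X_eq_prod : (X ^ q - X : F[X]) = ∏ c : F, (X - C c) := by
  have hm : (X ^ q - X : F[X]).Monic := monic_X_pow_sub (by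
    rw [degree_X]; exact_mod_cast Fintype.one_lt_card)
  have := prod_multiset_X_sub_C_of_monic_of_roots_card_eq hm (by
    rw [FiniteField.roots_X_pow_card_sub_X, FiniteField.X_pow_card_sub_X_natDegree_eq _
      Fintype.one_lt_card]
    rfl)
  rw [FiniteField.roots_X_pow_card_sub_X] at this
  exact this.symm

lemma mem_range_of_pow_card_eq {Ω : Type*} [Field Ω] [Algebra F Ω] {x : Ω} (hx : x ^ q = x) :
    x ∈ Set.range (algebraMap F Ω) := by
  have h := congrArg (aeval x) (X_pow_card_sub_X_eq_prod (F := F))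
  rw [map_sub, map_pow, aeval_X, hx, sub_self, map_prod, eq_comm, Finset.prod_eq_zero_iff] at h
  obtain ⟨a, -, ha⟩ := h
  rw [map_sub, aeval_X, aeval_C, sub_eq_zero] at ha
  exact ⟨a, ha.symm⟩

lemma rootMultiplicity_X_pow_card_sub_X (c : F) :
    ((X ^ q - X : F[X]) ^ 2).rootMultiplicity c = 2 := by
  classical
  rw [← count_roots, roots_pow, Multiset.count_nsmul, FiniteField.roots_X_pow_card_sub_X]
  simp [Multiset.count_univ]

open Classical in
/-- The analysis above one abscissa. -/
lemma fibre_cases (Ω : Type*) [Field Ω] [Algebra F Ω] [IsAlgClosed Ω] (hΔ : W.Δ ≠ 0) {Nm Np : F[X]}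
    (hNm : algebraMap F[X] W.toAffine.CoordinateRing Nm = numCR W (diffSub W))
    (hNp : algebraMap F[X] W.toAffine.CoordinateRing Np = numCR W (diffAdd W))
    (hm0 : Nm ≠ 0) (hp0 : Np ≠ 0) (hsum : Nm + Np = sumPoly W)
    (hprod : Nm * Np = prodPoly W * (X ^ q - X) ^ 2) (c : F) :
    fibreCard W c + min (Nm.rootMultiplicity c) 2 = 2 ∧
      (fibreCard W c ≠ 0 → Nm.rootMultiplicity c ≤ 2) := by
  set j := algebraMap F Ω
  obtain ⟨β, hβ⟩ := IsAlgClosed.exists_root
    (C (1 : Ω) * X ^ 2 + C (j W.a₁ * j c + j W.a₃) * X +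
      C (-(j c ^ 3 + j W.a₂ * j c ^ 2 + j W.a₄ * j c + j W.a₆)))
    (by rw [degree_quadratic one_ne_zero]; exact two_ne_zero)
  simp only [IsRoot, eval_add, eval_mul, eval_C, eval_pow, eval_X, one_mul] at hβ
  set β' : Ω := -β - (j W.a₁ * j c + j W.a₃) with hβ'
  have hroot : ∀ y : Ω, y ^ 2 + (j W.a₁ * j c + j W.a₃) * y
      - (j c ^ 3 + j W.a₂ * j c ^ 2 + j W.a₄ * j c + j W.a₆) = (y - β) * (y - β') := fun y => by
    rw [hβ']; linear_combination hβ
  have hEq : (W.toAffine⁄Ω).Equation (j c) β := by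
    rw [Affine.equation_iff]
    show β ^ 2 + j W.a₁ * j c * β + j W.a₃ * β =
      j c ^ 3 + j W.a₂ * j c ^ 2 + j W.a₄ * j c + j W.a₆
    linear_combination hβ
  have hmemF : ∀ y : F, W.toAffine.Equation c y ↔ j y = β ∨ j y = β' := fun y => by
    rw [Affine.equation_iff', ← _root_.map_eq_zero j, ← sub_eq_zero (b := β),
      ← sub_eq_zero (b := β'), ← mul_eq_zero, ← hroot]
    simp only [WeierstrassCurve.toAffine, map_add, map_sub, map_mul, map_pow]
    constructor <;> intro h <;> linear_combination h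
  have hfrob : β ^ q = β ∨ β ^ q = β' := by
    have h := congrArg (fun z : Ω => FiniteField.frobeniusAlgHom F Ω z) hβ
    simp only [map_add, map_mul, map_pow, map_neg, AlgHom.commutes, map_zero, j] at h
    change (β ^ q) ^ 2 + _ * β ^ q + _ = 0 at h
    have h0 : (β ^ q - β) * (β ^ q - β') = 0 := by rw [← hroot]; linear_combination h
    rwa [mul_eq_zero, sub_eq_zero, sub_eq_zero] at h0
  have hT : algebraMap F Ω c ^ q = algebraMap F Ω c := by rw [← map_pow, FiniteField.pow_card]
  have hevm : j (Nm.eval c) = (β ^ q - β') ^ 2 := by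
    have h := congrArg (evalAlg hEq) hNm
    simp only [evalAlg_algebraMap, numCR, diffSub, map_add, map_sub, map_mul, map_pow, hT,
      evalAlg_root, AlgHom.commutes, aeval_algebraMap_apply_eq_algebraMap_eval,
      aeval_C, aeval_X, sub_self, mul_zero, add_zero, zero_pow two_ne_zero, sub_zero, j] at h
    rw [show j (Nm.eval c) = _ from h, hβ']
    ring
  have hevp : j (Np.eval c) = (β ^ q - β) ^ 2 := by
    have h := congrArg (evalAlg hEq) hNp
    simp only [evalAlg_algebraMap, numCR, diffAdd, map_add, map_sub, map_mul, map_pow, hT,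
      evalAlg_root, AlgHom.commutes, aeval_algebraMap_apply_eq_algebraMap_eval,
      aeval_X, sub_self, mul_zero, add_zero, zero_pow two_ne_zero, sub_zero, j] at h
    exact h
  have hmult : Nm.rootMultiplicity c + Np.rootMultiplicity c =
      (prodPoly W).rootMultiplicity c + 2 := by
    have h0 : Nm * Np ≠ 0 := mul_ne_zero hm0 hp0
    have h1 := rootMultiplicity_mul (x := c) h0
    rw [hprod, rootMultiplicity_mul (by rwa [hprod] at h0), rootMultiplicity_X_pow_card_sub_X] at h1
    omega
  have hcard : ∀ s : Finset F, (∀ y, y ∈ s ↔ (j y = β ∨ j y = β')) → fibreCard W c = s.card := by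
    intro s hs
    rw [fibreCard]
    congr 1
    ext y
    simp [hs, hmemF]
  by_cases hψ : β = β'
  · have hq : β ^ q = β := hfrob.elim id fun h => h.trans hψ.symm
    obtain ⟨b, hb⟩ := mem_range_of_pow_card_eq hq
    have hn : fibreCard W c = 1 := by
      rw [hcard {b} fun y => by
        rw [Finset.mem_singleton, ← hψ, or_self, ← hb, (algebraMap F Ω).injective.eq_iff],
        Finset.card_singleton]
    rw [hq, ← hψ, sub_self, zero_pow two_ne_zero, map_eq_zero] at hevm
    rw [hq, sub_self, zero_pow two_ne_zero, map_eq_zero] at hevp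
    have hP : (prodPoly W).rootMultiplicity c = 0 := rootMultiplicity_eq_zero
      (prodPoly_eval_ne_zero hΔ (by rw [← hsum, eval_add, hevm, hevp, add_zero]))
    have e1 : 0 < Nm.rootMultiplicity c := (rootMultiplicity_pos hm0).2 hevm
    have e2 : 0 < Np.rootMultiplicity c := (rootMultiplicity_pos hp0).2 hevp
    omega
  rcases hfrob with hq | hq
  · obtain ⟨b, hb⟩ := mem_range_of_pow_card_eq hq
    have hq' : β' ^ q = β' := by
      have h := congrArg (fun z : Ω => FiniteField.frobeniusAlgHom F Ω z) hβ'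
      simp only [map_sub, map_add, map_neg, map_mul, AlgHom.commutes, j] at h
      change β' ^ q = -(β ^ q) - _ at h
      rw [h, hq, hβ']
    obtain ⟨b', hb'⟩ := mem_range_of_pow_card_eq hq'
    have hne : b ≠ b' := fun e => hψ (by rw [← hb, ← hb', e])
    have hn : fibreCard W c = 2 := by
      rw [hcard {b, b'} fun y => by
        rw [Finset.mem_insert, Finset.mem_singleton, ← hb, ← hb',
          (algebraMap F Ω).injective.eq_iff, (algebraMap F Ω).injective.eq_iff],
        Finset.card_pair hne]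
    have h0 : Nm.rootMultiplicity c = 0 := rootMultiplicity_eq_zero fun e => by
      rw [IsRoot.def] at e
      rw [e, map_zero, hq] at hevm
      exact sub_ne_zero.2 hψ (pow_eq_zero_iff two_ne_zero |>.1 hevm.symm)
    omega
  · have hn : fibreCard W c = 0 := by
      rw [hcard ∅ fun y => ?_, Finset.card_empty]
      refine iff_of_false (Finset.notMem_empty y) fun h => hψ ?_
      rcases h with h | h
      · have hh : β ^ q = β := by rw [← h, ← map_pow, FiniteField.pow_card]
        exact hh.symm.trans hq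
      · have hh : β' ^ q = β' := by rw [← h, ← map_pow, FiniteField.pow_card]
        have h' := congrArg (fun z : Ω => FiniteField.frobeniusAlgHom F Ω z) hβ'
        simp only [map_sub, map_add, map_neg, map_mul, AlgHom.commutes, j] at h'
        change β' ^ q = -(β ^ q) - _ at h'
        rw [hh, hq] at h'
        rw [hβ'] at h' ⊢
        linear_combination -h'
    have h0 : Np.rootMultiplicity c = 0 := rootMultiplicity_eq_zero fun e => by
      rw [IsRoot.def] at e
      rw [e, map_zero, hq] at hevp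
      exact sub_ne_zero.2 (Ne.symm hψ) (pow_eq_zero_iff two_ne_zero |>.1 hevp.symm)
    omega

variable [DecidableEq (FF W)]

/-- The two basic degrees. -/
theorem ptDeg_frob_sub_add (hΔ : W.Δ ≠ 0) :
    ptDeg W (ratIncl W) (frobPoint hΔ - genPoint W hΔ) = Nat.card W.toAffine.Point ∧
    ptDeg W (ratIncl W) (frobPoint hΔ + genPoint W hΔ) ≠ 0 := by
  obtain ⟨Nm, Np, hNm, hNp, hsum, hprod, ⟨xm, ym, hm, hPm, rfl⟩, ⟨xp, yp, hp, hPp, rfl⟩⟩ :=
    exists_numerators (W := W) hΔ
  have h1 : 1 < q := Fintype.one_lt_card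
  have hdne : (X ^ q - X : F[X]) ≠ 0 := FiniteField.X_pow_card_sub_X_ne_zero F h1
  have hdeg2 : ((X ^ q - X : F[X]) ^ 2).natDegree = 2 * q := by
    rw [natDegree_pow, FiniteField.X_pow_card_sub_X_natDegree_eq F h1]
  have hP0 : prodPoly W ≠ 0 := fun e => by
    have := natDegree_prodPoly (W := W); rw [e, natDegree_zero] at this; omega
  have hprod0 : Nm * Np ≠ 0 := by rw [hprod]; exact mul_ne_zero hP0 (pow_ne_zero _ hdne)
  have hm0 := left_ne_zero_of_mul hprod0
  have hp0 := right_ne_zero_of_mul hprod0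
  have hdegs : Nm.natDegree + Np.natDegree = 4 * q + 2 := by
    rw [← natDegree_mul hm0 hp0, hprod, natDegree_mul hP0 (pow_ne_zero _ hdne), hdeg2,
      natDegree_prodPoly]
    ring
  have hsle : (Nm + Np).natDegree ≤ 2 * q + 1 := hsum ▸ natDegree_sumPoly_le
  have hNmdeg : Nm.natDegree = 2 * q + 1 ∧ Np.natDegree = 2 * q + 1 := by
    rcases lt_trichotomy Nm.natDegree Np.natDegree with h | h | h
    · rw [natDegree_add_eq_right_of_natDegree_lt h] at hsle; omega
    · omega
    · rw [natDegree_add_eq_left_of_natDegree_lt h] at hsle; omega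
  have hinv : ∀ z, Function.invFun (ratIncl W) (ratIncl W z) = z :=
    Function.leftInverse_invFun (ratIncl W).injective
  constructor
  · rw [hPm]
    show ratDeg (Function.invFun (ratIncl W) _) = _
    rw [hinv]
    have hfc := fibre_cases (AlgebraicClosure F) hΔ hNm hNp hm0 hp0 hsum hprod
    set e : F → ℕ := fun c => min (Nm.rootMultiplicity c) 2
    have hg : ∏ c : F, (X - C c) ^ e c ∣ Nm := by
      refine Finset.prod_dvd_of_coprime (fun a _ b _ hab => ?_) fun c _ => ?_
      · exact (isCoprime_X_sub_C_of_isUnit_sub (sub_ne_zero.2 hab).isUnit).pow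
      · exact (le_rootMultiplicity_iff hm0).1 (min_le_left _ _)
    obtain ⟨N1, hN1⟩ := hg
    set g := ∏ c : F, (X - C c) ^ e c
    set D1 := ∏ c : F, (X - C c) ^ fibreCard W c with hD1
    have hd2 : (X ^ q - X : F[X]) ^ 2 = g * D1 := by
      rw [X_pow_card_sub_X_eq_prod, ← Finset.prod_pow, ← Finset.prod_mul_distrib]
      refine Finset.prod_congr rfl fun c _ => ?_
      rw [← pow_add]
      congr 1
      simp only [e]
      have := (hfc c).1
      omega
    have hD0 : D1 ≠ 0 := Finset.prod_ne_zero_iff.2 fun c _ => pow_ne_zero _ (X_sub_C_ne_zero c)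
    have hg0 : g ≠ 0 := Finset.prod_ne_zero_iff.2 fun c _ => pow_ne_zero _ (X_sub_C_ne_zero c)
    have hN10 : N1 ≠ 0 := fun h => hm0 (by rw [hN1, h, mul_zero])
    have hco : IsCoprime N1 D1 := by
      refine IsCoprime.prod_right fun c _ => ?_
      rcases Nat.eq_zero_or_pos (fibreCard W c) with h | h
      · rw [h, pow_zero]; exact isCoprime_one_right
      refine IsCoprime.pow_right (((irreducible_X_sub_C c).coprime_iff_not_dvd).2 fun hdvd => ?_).symm
      have hdd : (X - C c) ^ (e c + 1) ∣ Nm := by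
        rw [hN1, pow_succ]
        exact mul_dvd_mul (Finset.dvd_prod_of_mem _ (Finset.mem_univ c)) hdvd
      have := (le_rootMultiplicity_iff hm0).2 hdd
      have := (hfc c).2 (by omega)
      simp only [e] at *
      omega
    have hfrac : mkRat Nm ((X ^ q - X : F[X]) ^ 2) = mkRat N1 D1 := by
      rw [mkRat, mkRat, hd2, hN1, map_mul, map_mul,
        mul_div_mul_left _ _ (algebraMap_ne_zero_iff.2 hg0)]
    rw [hfrac, ratDeg_mkRat hD0 hco, card_point_eq hΔ]
    have hD : D1.natDegree = ∑ c : F, fibreCard W c := by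
      rw [hD1, natDegree_prod _ _ fun c _ => pow_ne_zero _ (X_sub_C_ne_zero c)]
      exact Finset.sum_congr rfl fun c _ => by rw [natDegree_pow, natDegree_X_sub_C, mul_one]
    have hN : g.natDegree + N1.natDegree = 2 * q + 1 := by
      rw [← natDegree_mul hg0 hN10, ← hN1, hNmdeg.1]
    have hgD : g.natDegree + D1.natDegree = 2 * q := by
      rw [← natDegree_mul hg0 hD0, ← hd2, hdeg2]
    omega
  · rw [hPp]
    show ratDeg (Function.invFun (ratIncl W) _) ≠ 0
    rw [hinv]
    intro h
    obtain ⟨a, ha⟩ := exists_eq_C_of_ratDeg_eq_zero h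
    rw [mkRat, div_eq_iff (algebraMap_ne_zero_iff.2 (pow_ne_zero _ hdne)), ← RatFunc.algebraMap_C,
      ← map_mul] at ha
    have := congrArg natDegree (RatFunc.algebraMap_injective F ha)
    have h3 := natDegree_C_mul_le a ((X ^ q - X : F[X]) ^ 2)
    rw [hdeg2] at h3
    omega

end FermatAgent.Hasse
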