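import Fermat.Agent.Hasse.FunctionField

/-!
# Frobenius on the function field and the two basic points

For a finite field `F`: the Frobenius point `φ = (t ^ q, s ^ q)`, the abscissae of `φ ± Q` written
with denominator `(t ^ q - t) ^ 2`, and the relations between their numerators.
-/

set_option autoImplicit false

namespace FermatAgent.Hasse

open WeierstrassCurve Polynomial
open scoped WeierstrassCurve.Affine

variable {F : Type*} [Field F] [Fintype F] {W : WeierstrassCurve F}

/-- The Frobenius endomorphism of the function field. -/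
noncomputable def frobFF (W : WeierstrassCurve F) : FF W →ₐ[F] FF W :=
  FiniteField.frobeniusAlgHom F (FF W)

local notation "q" => Fintype.card F

lemma frobFF_apply (x : FF W) : frobFF W x = x ^ q := rfl

lemma conjFF_comp_frobFF : (conjFF W).comp (frobFF W) = (frobFF W).comp (conjFF W) :=
  AlgHom.ext fun x => by simp [frobFF_apply]

variable [DecidableEq (FF W)] (hΔ : W.Δ ≠ 0)

/-- The Frobenius point. -/
noncomputable def frobPoint : (EL W).Point :=
  Affine.Point.map (W' := W.toAffine) (frobFF W) (genPoint W hΔ)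

lemma frobPoint_mem : frobPoint hΔ ∈ antiPoints (W := W) :=
  map_mem_antiPoints _ conjFF_comp_frobFF (genPoint_mem hΔ)

omit [DecidableEq (FF W)] in
lemma genX_pow_sub_ne_zero : genX W ^ q - genX W ≠ 0 := by
  have := aeval_genX_ne_zero W (p := (X ^ q - X : F[X]))
    (FiniteField.X_pow_card_sub_X_ne_zero F Fintype.one_lt_card)
  simpa using this

lemma frobPoint_eq : ∃ h, frobPoint (W := W) hΔ = .some (genX W ^ q) (genY W ^ q) h :=
  ⟨_, rfl⟩

omit [DecidableEq (FF W)] in
lemma genX_pow_ne : genX W ^ q ≠ genX W := fun e => genX_pow_sub_ne_zero (sub_eq_zero.2 e)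

/-- Numerator of the abscissa of `φ + (t, y₂)` inside the coordinate ring. -/
noncomputable def numCR (W : WeierstrassCurve F) (A : W.toAffine.CoordinateRing) :
    W.toAffine.CoordinateRing :=
  A ^ 2 + algebraMap F _ W.a₁ * A * algebraMap F[X] _ (X ^ q - X)
    - (algebraMap F _ W.a₂ + algebraMap F[X] _ (X ^ q + X)) * algebraMap F[X] _ (X ^ q - X) ^ 2

/-- `s ^ q + s + a₁ t + a₃`. -/
noncomputable def diffSub (W : WeierstrassCurve F) : W.toAffine.CoordinateRing :=
  AdjoinRoot.root _ ^ q + AdjoinRoot.root _ + algebraMap F[X] _ (C W.a₁ * X + C W.a₃)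

/-- `s ^ q - s`. -/
noncomputable def diffAdd (W : WeierstrassCurve F) : W.toAffine.CoordinateRing :=
  AdjoinRoot.root _ ^ q - AdjoinRoot.root _

omit [Fintype F] [DecidableEq (FF W)] in
lemma algebraMap_FF_root : algebraMap W.toAffine.CoordinateRing (FF W) (AdjoinRoot.root _) = genY W :=
  rfl

include hΔ in
lemma exists_add_abscissa {y₂ : FF W} (h₂ : (EL W).Nonsingular (genX W) y₂)
    (hmem : (.some _ _ h₂ : (EL W).Point) ∈ antiPoints (W := W))
    (A : W.toAffine.CoordinateRing)
    (hA : algebraMap _ (FF W) A = genY W ^ q - y₂) :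
    ∃ x y h, frobPoint hΔ + .some _ _ h₂ = .some x y h ∧
      x = (EL W).addX (genX W ^ q) (genX W)
        ((EL W).slope (genX W ^ q) (genX W) (genY W ^ q) y₂) ∧
      ∃ N : F[X], algebraMap F[X] W.toAffine.CoordinateRing N = numCR W A ∧
        aeval (genX W) N = x * (genX W ^ q - genX W) ^ 2 := by
  obtain ⟨h₁, hP⟩ := frobPoint_eq (W := W) hΔ
  have hne := genX_pow_ne (W := W)
  have hd := genX_pow_sub_ne_zero (W := W)
  refine ⟨_, _, _, by rw [hP, Affine.Point.add_of_X_ne hne], rfl, ?_⟩
  set x := (EL W).addX (genX W ^ q) (genX W)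
    ((EL W).slope (genX W ^ q) (genX W) (genY W ^ q) y₂) with hx
  have hval : algebraMap _ (FF W) (numCR W A) = x * (genX W ^ q - genX W) ^ 2 := by
    rw [hx, Affine.slope_of_X_ne hne]
    simp only [numCR, map_add, map_sub, map_mul, map_pow, hA, ← IsScalarTower.algebraMap_apply,
      Affine.addX, EL_a₁, EL_a₂]
    rw [show algebraMap F[X] (FF W) X = genX W by rw [IsScalarTower.algebraMap_apply F[X] W.toAffine.CoordinateRing (FF W)]; rfl]
    field_simp
    ring
  have hxr : x ∈ Set.range (ratIncl W) := by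
    have := hasXRat_of_mem hΔ ((antiPoints (W := W)).add_mem (frobPoint_mem hΔ) hmem)
    rw [hP, Affine.Point.add_of_X_ne hne] at this
    exact this
  obtain ⟨r, hr⟩ := hxr
  obtain ⟨p, p', hpp⟩ := Affine.CoordinateRing.exists_smul_basis_eq (numCR W A)
  have hfix : conjFF W (algebraMap _ (FF W) (numCR W A)) = algebraMap _ (FF W) (numCR W A) := by
    rw [hval, ← hr, map_mul, conjFF_ratIncl, map_pow, map_sub, map_pow, conjFF, endoOfPoint_genX]
  have himg : algebraMap _ (FF W) (numCR W A) = aeval (genX W) p + aeval (genX W) p' * genY W := by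
    rw [← hpp, Algebra.smul_def, Algebra.smul_def, map_add, map_mul, map_mul, map_one, mul_one,
      ← aeval_genX, ← aeval_genX]
    rfl
  rw [himg, map_add, map_mul, ← aeval_algHom_apply, ← aeval_algHom_apply, conjFF, endoOfPoint_genX,
    endoOfPoint_genY, add_right_inj] at hfix
  have hp' : p' = 0 := by
    by_contra hp'
    exact genY_sub_negY_ne_zero hΔ
      (sub_eq_zero.2 (mul_left_cancel₀ (aeval_genX_ne_zero W hp') hfix).symm)
  rw [hp', zero_smul, add_zero] at hpp
  refine ⟨p, by rw [← hpp, Algebra.smul_def, mul_one], ?_⟩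
  rw [← hval, himg, hp', map_zero, zero_mul, add_zero]

variable (W) in
/-- Numerator of the sum of the two abscissae. -/
noncomputable def sumPoly : F[X] :=
  C 2 * X ^ q * X * (X ^ q + X) + C W.b₂ * (X ^ q * X) + C W.b₄ * (X ^ q + X) + C W.b₆

variable (W) in
/-- Numerator of the product of the two abscissae. -/
noncomputable def prodPoly : F[X] :=
  (X ^ q) ^ 2 * X ^ 2 - C W.b₄ * (X ^ q * X) - C W.b₆ * (X ^ q + X) - C W.b₈

include hΔ in
/-- The numerators of the abscissae of `φ - Q` and `φ + Q`. -/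
theorem exists_numerators : ∃ Nm Np : F[X],
    algebraMap F[X] W.toAffine.CoordinateRing Nm = numCR W (diffSub W) ∧
    algebraMap F[X] W.toAffine.CoordinateRing Np = numCR W (diffAdd W) ∧
    Nm + Np = sumPoly W ∧ Nm * Np = prodPoly W * (X ^ q - X) ^ 2 ∧
    (∃ x y h, frobPoint hΔ - genPoint W hΔ = .some x y h ∧
      x = ratIncl W (mkRat Nm ((X ^ q - X) ^ 2))) ∧
    (∃ x y h, frobPoint hΔ + genPoint W hΔ = .some x y h ∧
      x = ratIncl W (mkRat Np ((X ^ q - X) ^ 2))) := by
  have hQ := genPoint_mem (W := W) hΔ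
  have hQ' := (antiPoints (W := W)).neg_mem hQ
  obtain ⟨xm, ym, hm, hPm, hxm, Nm, hNm, hNm'⟩ := exists_add_abscissa hΔ
    ((Affine.nonsingular_neg (genX W) (genY W)).2
      ((Affine.equation_iff_nonsingular_of_Δ_ne_zero (by
        show (W.map (algebraMap F (FF W))).Δ ≠ 0
        rw [WeierstrassCurve.map_Δ]; exact (_root_.map_ne_zero _).2 hΔ)).1 (equation_gen W)))
    hQ' (diffSub W) (by
      rw [diffSub, map_add, map_add, map_pow, algebraMap_FF_root, ← aeval_genX]
      simp [Affine.negY]
      ring)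
  obtain ⟨xp, yp, hp, hPp, hxp, Np, hNp, hNp'⟩ := exists_add_abscissa hΔ _ hQ (diffAdd W) (by
    rw [diffAdd, map_sub, map_pow, algebraMap_FF_root])
  have hne := genX_pow_ne (W := W)
  have hd := genX_pow_sub_ne_zero (W := W)
  have heq := equation_gen W
  have heq' : (EL W).Equation (genX W ^ q) (genY W ^ q) := by
    obtain ⟨h₁, -⟩ := frobPoint_eq (W := W) hΔ
    exact h₁.1
  have hinj : Function.Injective (aeval (genX W) : F[X] →ₐ[F] FF W) :=
    (injective_iff_map_eq_zero _).2 fun r hr => not_imp_not.1 (aeval_genX_ne_zero W) hr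
  have hden : aeval (genX W) ((X ^ q - X : F[X]) ^ 2) = (genX W ^ q - genX W) ^ 2 := by simp
  have hfrac : ∀ N : F[X], ∀ x : FF W, aeval (genX W) N = x * (genX W ^ q - genX W) ^ 2 →
      x = ratIncl W (mkRat N ((X ^ q - X) ^ 2)) := fun N x h => by
    rw [mkRat, map_div₀, ratIncl_algebraMap, ratIncl_algebraMap, h, hden,
      mul_div_cancel_right₀ _ (pow_ne_zero 2 hd)]
  refine ⟨Nm, Np, hNm, hNp, hinj ?_, hinj ?_,
    ⟨xm, ym, hm, by rw [sub_eq_add_neg]; exact hPm, hfrac _ _ hNm'⟩,
    ⟨xp, yp, hp, hPp, hfrac _ _ hNp'⟩⟩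
  · rw [map_add, hNm', hNp', ← add_mul, hxm, hxp, add_comm,
      LocalP.addX_add_addX_neg heq' heq hne]
    simp [sumPoly, map_ofNat, EL_b₂, EL_b₄, EL_b₆]
  · rw [map_mul, hNm', hNp', map_mul, hden, hxm, hxp,
      show ∀ a b e : FF W, a * e * (b * e) = b * a * e * e by intros; ring,
      LocalP.addX_mul_addX_neg heq' heq hne]
    simp [prodPoly, EL_b₄, EL_b₆, EL_b₈]

omit [DecidableEq (FF W)] in
lemma natDegree_sumPoly_le : (sumPoly W).natDegree ≤ 2 * q + 1 := by
  have h1 : (1 : ℕ) ≤ q := Fintype.card_pos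
  have hT : (X ^ q : F[X]).natDegree ≤ q := natDegree_X_pow_le _
  have hX : (X : F[X]).natDegree ≤ 1 := natDegree_X_le
  have hTX : (X ^ q + X : F[X]).natDegree ≤ q :=
    natDegree_add_le_of_degree_le hT (hX.trans h1)
  refine natDegree_add_le_of_degree_le (natDegree_add_le_of_degree_le
    (natDegree_add_le_of_degree_le ?_ ?_) ?_) (by simp)
  · refine (natDegree_mul_le_of_le (natDegree_mul_le_of_le
      (natDegree_mul_le_of_le (natDegree_C _).le hT) hX) hTX).trans (by omega)
  · exact ((natDegree_C_mul_le _ _).trans (natDegree_mul_le_of_le hT hX)).trans (by omega)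
  · exact ((natDegree_C_mul_le _ _).trans hTX).trans (by omega)

omit [DecidableEq (FF W)] in
lemma natDegree_prodPoly : (prodPoly W).natDegree = 2 * q + 2 := by
  have h1 : (1 : ℕ) ≤ q := Fintype.card_pos
  have hT : (X ^ q : F[X]).natDegree ≤ q := natDegree_X_pow_le _
  have hX : (X : F[X]).natDegree ≤ 1 := natDegree_X_le
  have hTX : (X ^ q + X : F[X]).natDegree ≤ q := natDegree_add_le_of_degree_le hT (hX.trans h1)
  have hmain : ((X ^ q) ^ 2 * X ^ 2 : F[X]).natDegree = 2 * q + 2 := by
    rw [← pow_mul, ← pow_add, natDegree_X_pow]; ring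
  have hr : (C W.b₄ * (X ^ q * X) + C W.b₆ * (X ^ q + X) + C W.b₈).natDegree < 2 * q + 2 := by
    refine lt_of_le_of_lt (natDegree_add_le_of_degree_le (natDegree_add_le_of_degree_le
      ((natDegree_C_mul_le _ _).trans (natDegree_mul_le_of_le hT hX))
      (((natDegree_C_mul_le _ _).trans hTX).trans (Nat.le_add_right q 1)))
      ((natDegree_C _).le.trans (Nat.zero_le _))) (by omega)
  rw [prodPoly, sub_sub, sub_sub, natDegree_sub_eq_left_of_natDegree_lt
    (by rw [hmain, ← add_assoc]; exact hr), hmain]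

end FermatAgent.Hasse
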