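import Fermat.Agent.Hasse.Parallelogram

/-!
# The function field of a Weierstrass curve

For `W` over a field `F`: the generic point, the embedding of `F(t)`, endomorphisms of the function
field defined by points with non-constant abscissa, the hyperelliptic involution, and the
subgroup of points anti-invariant under it, whose abscissae lie in `F(t)`.
-/

set_option autoImplicit false

namespace FermatAgent.Hasse

open WeierstrassCurve Polynomial
open scoped WeierstrassCurve.Affine
open scoped Polynomial.Bivariate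

variable {F : Type*} [Field F] (W : WeierstrassCurve F)

/-- The function field. -/
abbrev FF : Type _ := W.toAffine.FunctionField

/-- The base change to the function field. -/
noncomputable abbrev EL : WeierstrassCurve.Affine (FF W) := (W.toAffine⁄(FF W))

/-- The abscissa of the generic point. -/
noncomputable def genX : FF W :=
  algebraMap W.toAffine.CoordinateRing (FF W) (algebraMap F[X] W.toAffine.CoordinateRing X)

/-- The ordinate of the generic point. -/
noncomputable def genY : FF W :=
  algebraMap W.toAffine.CoordinateRing (FF W) (AdjoinRoot.root W.toAffine.polynomial)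

lemma EL_a₁ : (EL W).a₁ = algebraMap F (FF W) W.a₁ := rfl
lemma EL_a₂ : (EL W).a₂ = algebraMap F (FF W) W.a₂ := rfl
lemma EL_b₂ : WeierstrassCurve.b₂ (EL W) = algebraMap F (FF W) W.b₂ := W.map_b₂ _
lemma EL_b₄ : WeierstrassCurve.b₄ (EL W) = algebraMap F (FF W) W.b₄ := W.map_b₄ _
lemma EL_b₆ : WeierstrassCurve.b₆ (EL W) = algebraMap F (FF W) W.b₆ := W.map_b₆ _
lemma EL_b₈ : WeierstrassCurve.b₈ (EL W) = algebraMap F (FF W) W.b₈ := W.map_b₈ _

lemma aeval_genX (p : F[X]) : aeval (genX W) p =
    algebraMap W.toAffine.CoordinateRing (FF W) (algebraMap F[X] W.toAffine.CoordinateRing p) := by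
  have h : aeval (genX W) =
      (IsScalarTower.toAlgHom F W.toAffine.CoordinateRing (FF W)).comp
        (IsScalarTower.toAlgHom F F[X] W.toAffine.CoordinateRing) :=
    Polynomial.algHom_ext (by simp [genX])
  rw [h]; rfl

lemma aeval_genX_ne_zero {p : F[X]} (hp : p ≠ 0) : aeval (genX W) p ≠ 0 := by
  rw [aeval_genX, ne_eq, map_eq_zero_iff _ (IsFractionRing.injective _ _),
    map_eq_zero_iff _ (FaithfulSMul.algebraMap_injective _ _)]
  exact hp

lemma eval₂_aeval_eq_zero_iff (X' Y' : FF W) :
    W.toAffine.polynomial.eval₂ (aeval X' : F[X] →ₐ[F] FF W).toRingHom Y' = 0 ↔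
      (EL W).Equation X' Y' := by
  rw [Affine.equation_iff']
  simp [WeierstrassCurve.Affine.polynomial, eval₂_pow]
  ring_nf

lemma equation_gen : (EL W).Equation (genX W) (genY W) := by
  rw [← eval₂_aeval_eq_zero_iff]
  have hh : (aeval (genX W) : F[X] →ₐ[F] FF W).toRingHom =
      (algebraMap W.toAffine.CoordinateRing (FF W)).comp
        (AdjoinRoot.of W.toAffine.polynomial) := RingHom.ext fun p => aeval_genX W p
  rw [hh, genY, ← Polynomial.hom_eval₂, AdjoinRoot.eval₂_root, map_zero]

section Endo

variable {W} {X' Y' : FF W} (heq : (EL W).Equation X' Y')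
  (htr : ∀ p : F[X], p ≠ 0 → aeval X' p ≠ 0)

/-- Evaluation of the coordinate ring at a point. -/
noncomputable def evalPoint : W.toAffine.CoordinateRing →ₐ[F] FF W :=
  AdjoinRoot.liftAlgHom W.toAffine.polynomial (aeval X') Y' ((eval₂_aeval_eq_zero_iff W X' Y').2 heq)

lemma evalPoint_algebraMap (p : F[X]) :
    evalPoint heq (algebraMap F[X] W.toAffine.CoordinateRing p) = aeval X' p :=
  AdjoinRoot.liftAlgHom_of ..

lemma evalPoint_root : evalPoint heq (AdjoinRoot.root W.toAffine.polynomial) = Y' :=
  AdjoinRoot.liftAlgHom_root ..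

include htr in
lemma evalPoint_injective : Function.Injective (evalPoint heq) := by
  refine (injective_iff_map_eq_zero _).2 fun z hz => ?_
  obtain ⟨p, q, rfl⟩ := Affine.CoordinateRing.exists_smul_basis_eq z
  have hN := Affine.CoordinateRing.coe_norm_smul_basis (W' := W.toAffine) p q
  rw [map_mul] at hN
  have h1 : Affine.CoordinateRing.mk W.toAffine (C p + C q * X) =
      p • (1 : W.toAffine.CoordinateRing) + q • Affine.CoordinateRing.mk W.toAffine X := by
    simp [Affine.CoordinateRing.smul]
  rw [h1] at hN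
  have hN0 : evalPoint heq (algebraMap F[X] W.toAffine.CoordinateRing
      (Algebra.norm F[X] (p • (1 : W.toAffine.CoordinateRing) +
        q • Affine.CoordinateRing.mk W.toAffine X))) = 0 := by
    rw [show algebraMap F[X] W.toAffine.CoordinateRing _ = _ from hN, map_mul, hz, zero_mul]
  rw [evalPoint_algebraMap] at hN0
  have := not_imp_not.1 (htr _) hN0
  rw [this] at hN
  rcases mul_eq_zero.1 (hN.symm.trans (map_zero _)) with h | h
  · exact h
  · have h2 : (p - q * (C W.a₁ * X + C W.a₃)) • (1 : W.toAffine.CoordinateRing) +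
        (-q) • Affine.CoordinateRing.mk W.toAffine X = 0 := by
      rw [← h]
      simp [Affine.CoordinateRing.smul]
      ring
    obtain ⟨hp, hq⟩ := Affine.CoordinateRing.smul_basis_eq_zero h2
    rw [neg_eq_zero] at hq
    rw [hq, zero_mul, sub_zero] at hp
    simp [hp, hq]

/-- The endomorphism of the function field defined by a point with transcendental abscissa. -/
noncomputable def endoOfPoint : FF W →ₐ[F] FF W :=
  IsFractionRing.liftAlgHom (evalPoint_injective heq htr)

lemma endoOfPoint_algebraMap (z : W.toAffine.CoordinateRing) :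
    endoOfPoint heq htr (algebraMap _ (FF W) z) = evalPoint heq z := by
  rw [endoOfPoint, IsFractionRing.liftAlgHom_apply, IsFractionRing.lift_algebraMap]
  rfl

@[simp] lemma endoOfPoint_genX : endoOfPoint heq htr (genX W) = X' := by
  rw [genX, endoOfPoint_algebraMap, evalPoint_algebraMap, aeval_X]

@[simp] lemma endoOfPoint_genY : endoOfPoint heq htr (genY W) = Y' := by
  rw [genY, endoOfPoint_algebraMap, evalPoint_root]

end Endo

/-- `F(t)` inside the function field. -/
noncomputable def ratIncl : RatFunc F →ₐ[F] FF W :=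
  RatFunc.liftAlgHom (aeval (genX W)) (fun _ hp => mem_nonZeroDivisors_of_ne_zero
    (aeval_genX_ne_zero W (nonZeroDivisors.ne_zero hp)))

@[simp] lemma ratIncl_algebraMap (p : F[X]) :
    ratIncl W (algebraMap F[X] (RatFunc F) p) = aeval (genX W) p := by
  have := RatFunc.liftAlgHom_apply_div (φ := aeval (genX W)) (hφ := fun _ hp =>
    mem_nonZeroDivisors_of_ne_zero (aeval_genX_ne_zero W (nonZeroDivisors.ne_zero hp))) p 1
  simpa [ratIncl] using this

lemma equation_negGen : (EL W).Equation (genX W) ((EL W).negY (genX W) (genY W)) :=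
  (Affine.equation_neg _ _).2 (equation_gen W)

/-- The hyperelliptic involution. -/
noncomputable def conjFF : FF W →ₐ[F] FF W :=
  endoOfPoint (equation_negGen W) (fun _ hp => aeval_genX_ne_zero W hp)

@[simp] lemma conjFF_ratIncl (r : RatFunc F) : conjFF W (ratIncl W r) = ratIncl W r := by
  have h : ∀ p : F[X], conjFF W (aeval (genX W) p) = aeval (genX W) p := fun p => by
    rw [← aeval_algHom_apply, conjFF, endoOfPoint_genX]
  conv_lhs => rw [← r.num_div_denom, map_div₀, map_div₀, ratIncl_algebraMap, ratIncl_algebraMap, h, h]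
  conv_rhs => rw [← r.num_div_denom, map_div₀, ratIncl_algebraMap, ratIncl_algebraMap]

variable {W}

/-- `2 s + a₁ t + a₃` is non-zero. -/
lemma genY_sub_negY_ne_zero (hΔ : W.Δ ≠ 0) :
    genY W - (EL W).negY (genX W) (genY W) ≠ 0 := by
  have : genY W - (EL W).negY (genX W) (genY W) = algebraMap W.toAffine.CoordinateRing (FF W)
      ((C W.a₁ * X + C W.a₃) • (1 : W.toAffine.CoordinateRing) +
        (2 : F[X]) • Affine.CoordinateRing.mk W.toAffine X) := by
    rw [map_add, Algebra.smul_def, Algebra.smul_def, map_mul, map_mul, ← aeval_genX, ← aeval_genX,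
      map_one]
    simp [genY, Affine.negY, map_ofNat]
    ring
  rw [this, ne_eq, map_eq_zero_iff _ (IsFractionRing.injective _ _)]
  intro h
  obtain ⟨hp, hq⟩ := Affine.CoordinateRing.smul_basis_eq_zero h
  have h2 : (2 : F) = 0 := by simpa [← map_ofNat C] using hq
  have ha1 : W.a₁ = 0 := by simpa using congrArg (fun r => coeff r 1) hp
  have ha3 : W.a₃ = 0 := by simpa using congrArg (fun r => coeff r 0) hp
  apply hΔ
  simp only [WeierstrassCurve.Δ, WeierstrassCurve.b₂, WeierstrassCurve.b₄, WeierstrassCurve.b₆,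
    WeierstrassCurve.b₈, ha1, ha3]
  linear_combination (-(W.a₂ ^ 2 + 4 * W.a₂ * 0) * (4 * W.a₂ * W.a₆ - W.a₄ ^ 2) * 8
    - 32 * W.a₄ ^ 3 - 216 * W.a₆ ^ 2 + 144 * W.a₂ * W.a₄ * W.a₆) * h2

lemma exists_eq_add_mul (z : FF W) :
    ∃ α β : RatFunc F, z = ratIncl W α + ratIncl W β * genY W := by
  obtain ⟨r, d, hd, rfl⟩ := IsFractionRing.div_surjective (A := W.toAffine.CoordinateRing) z
  obtain ⟨p, q, hpq⟩ := Affine.CoordinateRing.exists_smul_basis_eq d
  set d' := Affine.CoordinateRing.mk W.toAffine (C p + C q * (-(X : F[X][Y]) - C (C W.a₁ * X + C W.a₃)))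
  set N := Algebra.norm F[X] d
  have hN : algebraMap F[X] W.toAffine.CoordinateRing N = d * d' := by
    have h := Affine.CoordinateRing.coe_norm_smul_basis (W' := W.toAffine) p q
    rw [map_mul] at h
    rw [show Affine.CoordinateRing.mk W.toAffine (C p + C q * X) = d by
      rw [← hpq]; simp [Affine.CoordinateRing.smul]] at h
    rw [hpq] at h
    exact h
  have := Module.Finite.of_basis (Affine.CoordinateRing.basis W.toAffine)
  have hN0 : N ≠ 0 := Algebra.norm_ne_zero_iff.2 (nonZeroDivisors.ne_zero hd)
  obtain ⟨A, B, hAB⟩ := Affine.CoordinateRing.exists_smul_basis_eq (r * d')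
  refine ⟨mkRat A N, mkRat B N, ?_⟩
  simp only [mkRat, map_div₀, ratIncl_algebraMap, aeval_genX]
  set j := algebraMap W.toAffine.CoordinateRing (FF W)
  have hjd : j d ≠ 0 := (map_ne_zero_iff _ (IsFractionRing.injective _ _)).2 (nonZeroDivisors.ne_zero hd)
  have hjN : j (algebraMap F[X] _ N) ≠ 0 := by rw [← aeval_genX]; exact aeval_genX_ne_zero W hN0
  have hAB' : j r * j d' = j (algebraMap F[X] _ A) + j (algebraMap F[X] _ B) * genY W := by
    rw [← map_mul, ← hAB, map_add, Algebra.smul_def, Algebra.smul_def, map_mul, map_mul, map_one,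
      mul_one]
    rfl
  rw [div_mul_eq_mul_div, ← add_div, div_eq_div_iff hjd hjN, ← hAB', hN, map_mul]
  ring

lemma mem_range_of_conjFF_eq (hΔ : W.Δ ≠ 0) {z : FF W} (hz : conjFF W z = z) :
    z ∈ Set.range (ratIncl W) := by
  obtain ⟨α, β, rfl⟩ := exists_eq_add_mul z
  rw [map_add, map_mul, conjFF_ratIncl, conjFF_ratIncl, add_right_inj] at hz
  refine ⟨α, ?_⟩
  have h : ratIncl W β * (genY W - (EL W).negY (genX W) (genY W)) = 0 := by
    rw [mul_sub, sub_eq_zero, ← hz, conjFF, endoOfPoint_genY]
  rw [mul_eq_zero, or_iff_left (genY_sub_negY_ne_zero hΔ)] at h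
  rw [h, zero_mul, add_zero]

/-! ### Points over the function field -/

variable [DecidableEq (FF W)]

/-- Points anti-invariant under the hyperelliptic involution. -/
noncomputable def antiPoints : AddSubgroup (EL W).Point where
  carrier := {P | Affine.Point.map (W' := W.toAffine) (conjFF W) P = -P}
  add_mem' {P Q} hP hQ := by
    simp only [Set.mem_ofPred_eq, map_add] at *
    rw [hP, hQ, neg_add]
  zero_mem' := by simp
  neg_mem' {P} hP := by
    simp only [Set.mem_ofPred_eq, map_neg] at *
    rw [hP]

lemma hasXRat_of_mem (hΔ : W.Δ ≠ 0) {P : (EL W).Point} (hP : P ∈ antiPoints (W := W)) :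
    HasXRat W (ratIncl W) P := by
  rcases P with _ | ⟨x, y, h⟩
  · trivial
  · refine mem_range_of_conjFF_eq hΔ ?_
    have := hP
    change Affine.Point.map (W' := W.toAffine) (conjFF W) (Affine.Point.some x y h) =
      -Affine.Point.some x y h at this
    rw [Affine.Point.map_some, Affine.Point.neg_some] at this
    exact (Affine.Point.some.inj this).1

/-- A map commuting with the involution preserves anti-invariant points. -/
lemma map_mem_antiPoints (σ : FF W →ₐ[F] FF W)
    (hσ : (conjFF W).comp σ = σ.comp (conjFF W)) {P : (EL W).Point}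
    (hP : P ∈ antiPoints (W := W)) :
    Affine.Point.map (W' := W.toAffine) σ P ∈ antiPoints (W := W) := by
  show Affine.Point.map (W' := W.toAffine) (conjFF W) (Affine.Point.map (W' := W.toAffine) σ P) = _
  rw [Affine.Point.map_map, hσ, ← Affine.Point.map_map, hP, map_neg]

variable (W) in
/-- The generic point. -/
noncomputable def genPoint (hΔ : W.Δ ≠ 0) : (EL W).Point :=
  .some (genX W) (genY W) ((Affine.equation_iff_nonsingular_of_Δ_ne_zero (by
    show (W.map (algebraMap F (FF W))).Δ ≠ 0
    rw [WeierstrassCurve.map_Δ]; exact (_root_.map_ne_zero _).2 hΔ)).1 (equation_gen W))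

lemma genPoint_mem (hΔ : W.Δ ≠ 0) : genPoint W hΔ ∈ antiPoints (W := W) := by
  show Affine.Point.map (W' := W.toAffine) (conjFF W) _ = _
  simp only [genPoint, Affine.Point.map_some, Affine.Point.neg_some, Affine.Point.some.injEq]
  exact ⟨endoOfPoint_genX _ _, endoOfPoint_genY _ _⟩

end FermatAgent.Hasse
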