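import Fermat.Agent.Local.Integral

/-!
# The reduction homomorphism at a place of good reduction

For a valuation subring `A` of `K`, a homomorphism `π : A →+* k` whose kernel is the maximal ideal,
and a Weierstrass curve `W` with coefficients in `A` and unit discriminant, `redHom` is the
reduction homomorphism on points. It is injective on torsion of order prime to the residue
characteristic.
-/

set_option autoImplicit false

namespace FermatAgent.Hasse

open WeierstrassCurve WeierstrassCurve.Affine FermatAgent.Local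

variable {K k : Type*} [Field K] [Field k]

/-- Good reduction data: an integral equation, a residue map, a unit discriminant. -/
structure GoodPlace (A : ValuationSubring K) (W : WeierstrassCurve.Affine K) (π : A →+* k) :
    Prop where
  intCoeffs : IntCoeffs A W
  val_lt_one_iff : ∀ z : A, A.valuation (z : K) < 1 ↔ π z = 0
  disc : A.valuation W.Δ = 1

namespace GoodPlace

variable {A : ValuationSubring K} {W : WeierstrassCurve.Affine K} {π : A →+* k}
  (h : GoodPlace A W π)

/-- The reduced curve. -/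
abbrev redCurve : WeierstrassCurve.Affine k := ((intModel h.intCoeffs).map π).toAffine

lemma redCurve_Δ : h.redCurve.Δ ≠ 0 := by
  show ((intModel h.intCoeffs).map π).Δ ≠ 0
  rw [WeierstrassCurve.map_Δ, ne_eq, ← h.val_lt_one_iff]
  refine not_lt.2 (le_of_eq ?_)
  conv_lhs => rw [← h.disc]
  congr 1

lemma nonsingular_red {x y : K} (hxy : W.Equation x y) (hx : x ∈ A) :
    h.redCurve.Nonsingular (π ⟨x, hx⟩) (π ⟨y, y_mem_of_x_mem h.intCoeffs hxy hx⟩) :=
  (equation_iff_nonsingular_of_Δ_ne_zero h.redCurve_Δ).1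
    ((((intModel h.intCoeffs).toAffine.map_equation (f := A.subtype) Subtype.coe_injective
      ⟨x, hx⟩ ⟨y, y_mem_of_x_mem h.intCoeffs hxy hx⟩).1 hxy).map π)

open Classical in
/-- Reduction of a point. -/
noncomputable def red : W.Point → h.redCurve.Point
  | .zero => 0
  | .some x _ hxy => if hx : x ∈ A then .some _ _ (h.nonsingular_red hxy.1 hx) else 0

lemma red_some {x y : K} (hxy : W.Nonsingular x y) (hx : x ∈ A) :
    h.red (.some x y hxy) = .some _ _ (h.nonsingular_red hxy.1 hx) := by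
  simp [red, hx]

lemma red_some_of_not_mem {x y : K} (hxy : W.Nonsingular x y) (hx : x ∉ A) :
    h.red (.some x y hxy) = 0 := by
  simp [red, hx]

lemma red_eq_zero_iff (P : W.Point) : h.red P = 0 ↔ InE1 A W P := by
  rcases P with _ | ⟨x, y, hxy⟩
  · exact iff_of_true rfl trivial
  · by_cases hx : x ∈ A
    · rw [h.red_some hxy hx]
      exact iff_of_false (Point.some_ne_zero _) (not_not.2 hx)
    · rw [h.red_some_of_not_mem hxy hx]
      exact iff_of_true rfl hx

include h in
lemma val_sub_lt_one {a b : A} (hab : π a = π b) : A.valuation ((a : K) - b) < 1 :=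
  (h.val_lt_one_iff (a - b)).2 (by rw [map_sub, hab, sub_self])

set_option linter.unusedSectionVars false

variable [DecidableEq K] [DecidableEq k]

lemma red_neg (P : W.Point) : h.red (-P) = -h.red P := by
  rcases P with _ | ⟨x, y, hxy⟩
  · rfl
  · rw [Point.neg_some]
    by_cases hx : x ∈ A
    · rw [h.red_some _ hx, h.red_some _ hx, Point.neg_some, Point.some.injEq]
      refine ⟨rfl, ?_⟩
      rw [show (⟨W.negY x y, y_mem_of_x_mem h.intCoeffs ((equation_neg x y).2 hxy.1) hx⟩ : A) =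
        (intModel h.intCoeffs).toAffine.negY ⟨x, hx⟩ ⟨y, y_mem_of_x_mem h.intCoeffs hxy.1 hx⟩ from
          Subtype.ext (by simp [negY, intModel])]
      simp [negY, map_sub, map_mul]
    · rw [h.red_some_of_not_mem _ hx, h.red_some_of_not_mem _ hx, neg_zero]

lemma red_add_of_mem {x₁ y₁ x₂ y₂ : K} (h₁ : W.Nonsingular x₁ y₁) (h₂ : W.Nonsingular x₂ y₂)
    (hx₁ : x₁ ∈ A) (hx₂ : x₂ ∈ A) :
    h.red (.some x₁ y₁ h₁ + .some x₂ y₂ h₂) =
      h.red (.some x₁ y₁ h₁) + h.red (.some x₂ y₂ h₂) := by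
  have hy₁ := y_mem_of_x_mem h.intCoeffs h₁.1 hx₁
  have hy₂ := y_mem_of_x_mem h.intCoeffs h₂.1 hx₂
  have hW := h.intCoeffs
  by_cases hb : π ⟨x₁, hx₁⟩ = π ⟨x₂, hx₂⟩ ∧
      π ⟨y₁, hy₁⟩ = h.redCurve.negY (π ⟨x₂, hx₂⟩) (π ⟨y₂, hy₂⟩)
  · rw [h.red_some h₁ hx₁, h.red_some h₂ hx₂, Point.add_of_Y_eq hb.1 hb.2, h.red_eq_zero_iff]
    have hneg : W.Nonsingular x₂ (W.negY x₂ y₂) := (nonsingular_neg x₂ y₂).2 h₂
    have hny := y_mem_of_x_mem hW hneg.1 hx₂
    have key := inE1_sub_of_congr hW h₁ hneg (smoothRed_of_goodReduction hW h.disc h₁.1 hx₁)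
      (h.val_sub_lt_one hb.1) (h.val_sub_lt_one (a := ⟨y₁, hy₁⟩) (b := ⟨_, hny⟩) ?_)
    · rwa [sub_eq_add_neg, ← Point.neg_some, neg_neg] at key
    · refine hb.2.trans ?_
      rw [show (⟨W.negY x₂ y₂, hny⟩ : A) =
        (intModel hW).toAffine.negY ⟨x₂, hx₂⟩ ⟨y₂, hy₂⟩ from
          Subtype.ext (by simp [negY, intModel])]
      simp [negY, map_sub, map_mul]
  have hxy : ¬(x₁ = x₂ ∧ y₁ = W.negY x₂ y₂) := by
    rintro ⟨rfl, rfl⟩
    refine hb ⟨rfl, ?_⟩
    rw [show (⟨W.negY x₁ y₂, hy₁⟩ : A) =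
      (intModel hW).toAffine.negY ⟨x₁, hx₁⟩ ⟨y₂, hy₂⟩ from
        Subtype.ext (by simp [negY, intModel])]
    simp [negY, map_sub, map_mul]
  -- the slope is integral and reduces to the slope
  have hl : ∃ hl : W.slope x₁ x₂ y₁ y₂ ∈ A, π ⟨_, hl⟩ =
      h.redCurve.slope (π ⟨x₁, hx₁⟩) (π ⟨x₂, hx₂⟩) (π ⟨y₁, hy₁⟩) (π ⟨y₂, hy₂⟩) := by
    set l := W.slope x₁ x₂ y₁ y₂ with hldef
    by_cases hbx : π ⟨x₁, hx₁⟩ = π ⟨x₂, hx₂⟩
    · have hby : π ⟨y₁, hy₁⟩ ≠ h.redCurve.negY (π ⟨x₂, hx₂⟩) (π ⟨y₂, hy₂⟩) := fun e => hb ⟨hbx, e⟩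
      have hbyy := (Y_eq_of_X_eq (h.nonsingular_red h₁.1 hx₁).1 (h.nonsingular_red h₂.1 hx₂).1
        hbx).resolve_right hby
      set d : A := ⟨y₁, hy₁⟩ + ⟨y₂, hy₂⟩ + (intModel hW).a₁ * ⟨x₂, hx₂⟩ + (intModel hW).a₃ with hd
      set n : A := ⟨x₁, hx₁⟩ ^ 2 + ⟨x₁, hx₁⟩ * ⟨x₂, hx₂⟩ + ⟨x₂, hx₂⟩ ^ 2
        + (intModel hW).a₂ * (⟨x₁, hx₁⟩ + ⟨x₂, hx₂⟩) + (intModel hW).a₄
        - (intModel hW).a₁ * ⟨y₁, hy₁⟩ with hn
      have hln : l * (d : K) = n := by
        rcases add_line h₁ h₂ with ⟨-, e⟩ | ⟨l', ν, x₃, h₃, h₃', -, e1, e2, -, -, -, exy, e4⟩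
        · exact absurd e hxy
        have : l = l' := by
          rw [hldef]
          by_cases hx : x₁ = x₂
          · have hy := exy hx
            subst hx hy
            have hne : y₁ - W.negY x₁ y₁ ≠ 0 := sub_ne_zero.2 fun e => hxy ⟨rfl, e⟩
            rw [slope_of_Y_ne rfl fun e => hxy ⟨rfl, e⟩, div_eq_iff hne]
            simp only [negY] at e4 ⊢
            linear_combination -e4
          · rw [slope_of_X_ne hx, div_eq_iff (sub_ne_zero.2 hx)]
            linear_combination e1 - e2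
        rw [this]
        simpa [hd, hn, intModel] using e4
      have hπd : π d ≠ 0 := fun e => hby <| by
        simp only [hd, map_add, map_mul] at e
        simp only [negY, WeierstrassCurve.map_a₁, WeierstrassCurve.map_a₃]
        linear_combination e
      have hvd : A.valuation (d : K) = 1 := by
        refine le_antisymm (A.valuation_le_one d) (not_lt.1 fun hlt => hπd ?_)
        exact (h.val_lt_one_iff d).1 hlt
      have hlA : l ∈ A := mem_of_val_le_one <| by
        have := congrArg A.valuation hln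
        rw [map_mul, hvd, mul_one] at this
        rw [this]; exact A.valuation_le_one n
      refine ⟨hlA, ?_⟩
      have := congrArg π (Subtype.ext hln : (⟨l, hlA⟩ : A) * d = n)
      rw [map_mul] at this
      have hne : π ⟨y₁, hy₁⟩ - h.redCurve.negY (π ⟨x₁, hx₁⟩) (π ⟨y₁, hy₁⟩) ≠ 0 :=
        sub_ne_zero.2 fun e => hby (e.trans (by rw [hbx, hbyy]))
      rw [slope_of_Y_ne hbx hby, eq_div_iff hne]
      simp only [hd, hn, map_add, map_sub, map_mul, map_pow, ← hbyy, ← hbx] at this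
      simp only [negY, WeierstrassCurve.map_a₁,
        WeierstrassCurve.map_a₂, WeierstrassCurve.map_a₃, WeierstrassCurve.map_a₄]
      linear_combination this
    · have hx : x₁ ≠ x₂ := fun e => hbx (by subst e; rfl)
      set d : A := ⟨x₁, hx₁⟩ - ⟨x₂, hx₂⟩ with hd
      have hπd : π d ≠ 0 := by rw [hd, map_sub, sub_ne_zero]; exact hbx
      have hvd : A.valuation (d : K) = 1 :=
        le_antisymm (A.valuation_le_one d)
          (not_lt.1 fun hlt => hπd ((h.val_lt_one_iff d).1 hlt))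
      have hln : l * (d : K) = ((⟨y₁, hy₁⟩ - ⟨y₂, hy₂⟩ : A) : K) := by
        rw [hldef, slope_of_X_ne hx]
        exact div_mul_cancel₀ _ (sub_ne_zero.2 hx)
      have hlA : l ∈ A := mem_of_val_le_one <| by
        have := congrArg A.valuation hln
        rw [map_mul, hvd, mul_one] at this
        rw [this]; exact A.valuation_le_one _
      refine ⟨hlA, ?_⟩
      have := congrArg π (Subtype.ext hln : (⟨l, hlA⟩ : A) * d = ⟨y₁, hy₁⟩ - ⟨y₂, hy₂⟩)
      rw [map_mul, hd, map_sub, map_sub] at this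
      rw [slope_of_X_ne hbx, eq_div_iff (sub_ne_zero.2 hbx), this]
  obtain ⟨hlA, hl⟩ := hl
  set l : A := ⟨_, hlA⟩
  set X₃ : A := (intModel hW).toAffine.addX ⟨x₁, hx₁⟩ ⟨x₂, hx₂⟩ l
  have hX : W.addX x₁ x₂ (W.slope x₁ x₂ y₁ y₂) = (X₃ : K) := by
    simp [X₃, l, intModel, addX]
  rw [h.red_some h₁ hx₁, h.red_some h₂ hx₂, Point.add_some hxy, Point.add_some hb,
    h.red_some _ (hX ▸ X₃.2), Point.some.injEq, ← hl]
  constructor
  · rw [show (⟨W.addX x₁ x₂ (W.slope x₁ x₂ y₁ y₂), hX ▸ X₃.2⟩ : A) = X₃ from Subtype.ext hX]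
    simp [X₃, addX, map_sub, map_add, map_mul, map_pow]
  · rw [show ∀ hm, (⟨W.addY x₁ x₂ y₁ (W.slope x₁ x₂ y₁ y₂), hm⟩ : A) =
      (intModel hW).toAffine.addY ⟨x₁, hx₁⟩ ⟨x₂, hx₂⟩ ⟨y₁, hy₁⟩ l from
        fun hm => Subtype.ext (by simp [l, intModel, addY, addX, negY])]
    simp [addY, negY, addX, map_sub, map_add, map_mul, map_pow]

/-- Reduction as a homomorphism. -/
noncomputable def redHom : W.Point →+ h.redCurve.Point where
  toFun := h.red
  map_zero' := rfl
  map_add' P Q := by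
    have hW := h.intCoeffs
    by_cases hP : InE1 A W P
    · rw [(h.red_eq_zero_iff P).2 hP, zero_add]
      by_cases hQ : InE1 A W Q
      · rw [(h.red_eq_zero_iff Q).2 hQ, h.red_eq_zero_iff]
        exact hP.add hW hQ
      · have hS : ¬ InE1 A W (P + Q) := fun hS => hQ <| by
          simpa using hP.neg'.add hW hS
        rcases hc : P + Q with _ | ⟨x, y, hxy⟩
        · exact absurd (hc ▸ trivial) hS
        rcases hd : -Q with _ | ⟨x', y', hxy'⟩
        · exact absurd (by rw [← neg_neg Q, hd]; trivial) hQ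
        rw [hc] at hS
        have hx' : x' ∈ A := by
          by_contra hx'
          exact hQ (by rw [← neg_neg Q]; exact InE1.neg' (by rw [hd]; exact hx'))
        have hadd := h.red_add_of_mem hxy hxy' (not_not.1 hS) hx'
        rw [← hc, ← hd, add_neg_cancel_right, (h.red_eq_zero_iff P).2 hP, h.red_neg] at hadd
        rw [← hc]
        rwa [eq_comm, ← sub_eq_add_neg, sub_eq_zero] at hadd
    · by_cases hQ : InE1 A W Q
      · rw [(h.red_eq_zero_iff Q).2 hQ, add_zero]
        have hS : ¬ InE1 A W (P + Q) := fun hS => hP <| by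
          simpa using hS.add hW hQ.neg'
        rcases hc : P + Q with _ | ⟨x, y, hxy⟩
        · exact absurd (hc ▸ trivial) hS
        rcases hd : -P with _ | ⟨x', y', hxy'⟩
        · exact absurd (by rw [← neg_neg P, hd]; trivial) hP
        rw [hc] at hS
        have hx' : x' ∈ A := by
          by_contra hx'
          exact hP (by rw [← neg_neg P]; exact InE1.neg' (by rw [hd]; exact hx'))
        have hadd := h.red_add_of_mem hxy hxy' (not_not.1 hS) hx'
        rw [← hc, ← hd, show P + Q + -P = Q by abel, (h.red_eq_zero_iff Q).2 hQ,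
          h.red_neg] at hadd
        rw [← hc]
        rwa [eq_comm, ← sub_eq_add_neg, sub_eq_zero] at hadd
      · rcases P with _ | ⟨x₁, y₁, h₁⟩
        · exact absurd trivial hP
        rcases Q with _ | ⟨x₂, y₂, h₂⟩
        · exact absurd trivial hQ
        exact h.red_add_of_mem h₁ h₂ (not_not.1 hP) (not_not.1 hQ)

@[simp] lemma redHom_apply (P : W.Point) : h.redHom P = h.red P := rfl

/-- Reduction is injective on torsion of order prime to the residue characteristic. -/
theorem eq_zero_of_red_eq_zero {n : ℕ} (hn : (n : k) ≠ 0) {P : W.Point} (hP : n • P = 0)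
    (hr : h.red P = 0) : P = 0 := by
  rcases P with _ | ⟨x, y, hxy⟩
  · rfl
  refine absurd (x_mem_of_nsmul_eq_zero h.intCoeffs ?_ hxy hP) ((h.red_eq_zero_iff _).1 hr)
  refine le_antisymm (val_le_one_of_mem (natCast_mem A n)) (not_lt.1 fun hlt => hn ?_)
  rw [← map_natCast π]
  exact (h.val_lt_one_iff _).1 (by simpa using hlt)

end GoodPlace

end FermatAgent.Hasse
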