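import Fermat.Agent.Hasse.Quadratic
import Fermat.Agent.Hasse.Reduction

/-!
# The characteristic equation of Frobenius

For a finite field `F`, a Weierstrass curve `W` over `F` with non-zero discriminant and an algebraic
extension `Ω` of `F`: `φ (φ P) - a φ P + q P = 0` for every point `P` over `Ω`, where `φ` is the
`#F`-power Frobenius and `a` the trace of Frobenius; and `a² ≤ 4 q`.
-/

set_option autoImplicit false

namespace FermatAgent.Hasse

open WeierstrassCurve Polynomial
open scoped WeierstrassCurve.Affine

section Cast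

variable {K : Type*} [Field K] [DecidableEq K] {C₁ C₂ : WeierstrassCurve.Affine K}

/-- Transport of points along an equality of curves. -/
noncomputable def castPoint (e : C₁ = C₂) : C₁.Point →+ C₂.Point := e ▸ AddMonoidHom.id _

lemma castPoint_some (e : C₁ = C₂) {x y : K} (h : C₁.Nonsingular x y) :
    castPoint e (.some x y h) = .some x y (e ▸ h) := by
  subst e; rfl

lemma castPoint_eq_zero_iff (e : C₁ = C₂) (P : C₁.Point) : castPoint e P = 0 ↔ P = 0 := by
  subst e; exact Iff.rfl

end Cast

variable {F : Type*} [Field F] [Fintype F] (W : WeierstrassCurve F)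

local notation "q" => Fintype.card F

/-- The Frobenius endomorphism on points over an extension of `F`. -/
noncomputable def frobMap (Ω : Type*) [Field Ω] [Algebra F Ω] [DecidableEq Ω] :
    (W.toAffine⁄Ω).Point →+ (W.toAffine⁄Ω).Point :=
  Affine.Point.map (W' := W.toAffine) (FiniteField.frobeniusAlgHom F Ω)

/-- `φ² - a φ + q`. -/
noncomputable def frobChar (Ω : Type*) [Field Ω] [Algebra F Ω] [DecidableEq Ω] :
    (W.toAffine⁄Ω).Point →+ (W.toAffine⁄Ω).Point :=
  (frobMap W Ω).comp (frobMap W Ω) - W.traceOfFrobenius • frobMap W Ω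
    + (q : ℤ) • AddMonoidHom.id _

lemma map_frobChar {Ω Ω' : Type*} [Field Ω] [Algebra F Ω] [DecidableEq Ω] [Field Ω'] [Algebra F Ω']
    [DecidableEq Ω'] (f : Ω →ₐ[F] Ω') (P : (W.toAffine⁄Ω).Point) :
    Affine.Point.map (W' := W.toAffine) f (frobChar W Ω P) =
      frobChar W Ω' (Affine.Point.map (W' := W.toAffine) f P) := by
  have hc : ∀ Q, Affine.Point.map (W' := W.toAffine) f (frobMap W Ω Q) =
      frobMap W Ω' (Affine.Point.map (W' := W.toAffine) f Q) := fun Q => by
    rw [frobMap, frobMap, Affine.Point.map_map, Affine.Point.map_map]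
    congr 2
    ext x
    exact map_pow f x _
  simp [frobChar, hc]

variable {W}

/-- At an affine point the value of `φ² - a φ + q` is a specialisation of the generic one. -/
lemma frobChar_at_point (hΔ : W.Δ ≠ 0) (Ω : Type*) [Field Ω] [Algebra F Ω] [DecidableEq Ω]
    [Algebra.IsAlgebraic F Ω] :
    (∀ P, P ≠ 0 → frobChar W Ω P = 0) ∨
      ∃ k : F, ∀ P, P ≠ 0 → ∃ y h, frobChar W Ω P = .some (algebraMap F Ω k) y h := by
  classical
  obtain ⟨hdeg, -⟩ := charPoint_deg_and_bound (W := W) hΔ
  have hmem := hasXRat_of_mem hΔ (charPoint_mem hΔ)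
  -- specialisation at one point
  have key : ∀ {c β : Ω} (h : (W.toAffine⁄Ω).Nonsingular c β),
      (charPoint hΔ = 0 → frobChar W Ω (.some c β h) = 0) ∧
      ∀ (k : F) (y : FF W) (hy : (EL W).Nonsingular (ratIncl W (RatFunc.C k)) y),
        charPoint hΔ = .some _ y hy →
        ∃ y' h', frobChar W Ω (.some c β h) = .some (algebraMap F Ω k) y' h' := by
    intro c β h
    set e := evalAlg (W := W) h.1
    set m : Ideal W.toAffine.CoordinateRing := RingHom.ker e.toRingHom with hm
    have hmp : m.IsPrime := RingHom.ker_isPrime _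
    set ebar : (W.toAffine.CoordinateRing ⧸ m) →ₐ[F] Ω :=
      Ideal.Quotient.liftₐ m e (fun a ha => ha) with hebar
    have hebar_inj : Function.Injective ebar := by
      refine (injective_iff_map_eq_zero _).2 fun z hz => ?_
      obtain ⟨w, rfl⟩ := Ideal.Quotient.mk_surjective z
      exact Ideal.Quotient.eq_zero_iff_mem.2 hz
    have : Algebra.IsIntegral F (W.toAffine.CoordinateRing ⧸ m) :=
      ⟨fun z => (isIntegral_algHom_iff ebar hebar_inj).1
        (Algebra.IsIntegral.isIntegral (ebar z))⟩
    have hmax : m.IsMaximal := Ideal.Quotient.maximal_of_isField _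
      (isField_of_isIntegral_of_isField' (R := F) (Field.toIsField F))
    let := Ideal.Quotient.field m
    set j := algebraMap W.toAffine.CoordinateRing (FF W)
    have hj : Function.Injective j := IsFractionRing.injective _ _
    -- a place over the point
    obtain ⟨A, hA, hAm⟩ := Ideal.image_subset_nonunits_valuationSubring
      (A := j.range) (m.map j.rangeRestrict) (by
        intro htop
        have hc := Ideal.comap_map_of_bijective j.rangeRestrict
          ⟨fun a b hab => hj (congrArg Subtype.val hab), j.rangeRestrict_surjective⟩ (I := m)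
        rw [htop, Ideal.comap_top] at hc
        exact hmax.ne_top hc.symm)
    have hjA : ∀ a, j a ∈ A := fun a => hA ⟨a, rfl⟩
    set π := IsLocalRing.residue A
    set ψ₀ : W.toAffine.CoordinateRing →+* IsLocalRing.ResidueField A :=
      π.comp (j.codRestrict A.toSubring hjA) with hψ₀
    let : Algebra F (IsLocalRing.ResidueField A) :=
      (ψ₀.comp (algebraMap F W.toAffine.CoordinateRing)).toAlgebra
    set ψ : W.toAffine.CoordinateRing →ₐ[F] IsLocalRing.ResidueField A :=
      { ψ₀ with commutes' := fun _ => rfl } with hψ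
    have hψm : ∀ a ∈ m, ψ a = 0 := fun a ha => by
      refine (IsLocalRing.residue_eq_zero_iff _).2 (ValuationSubring.mem_nonunits_iff_exists_mem_maximalIdeal.1
        (hAm ⟨_, Ideal.mem_map_of_mem _ ha, rfl⟩)).2
    set ψbar : (W.toAffine.CoordinateRing ⧸ m) →ₐ[F] IsLocalRing.ResidueField A :=
      Ideal.Quotient.liftₐ m ψ hψm
    -- the place is good
    have hconst : ∀ a : F, algebraMap F (FF W) a ∈ A := fun a => by
      rw [IsScalarTower.algebraMap_apply F W.toAffine.CoordinateRing (FF W)]; exact hjA _
    have hW : Local.IntCoeffs A (EL W) :=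
      ⟨hconst _, hconst _, hconst _, hconst _, hconst _⟩
    have hgood : GoodPlace A (EL W) π :=
      { intCoeffs := hW
        val_lt_one_iff := fun z => by
          rw [IsLocalRing.residue_eq_zero_iff, ValuationSubring.valuation_lt_one_iff]
        disc := by
          rw [show WeierstrassCurve.Δ (EL W) = algebraMap F (FF W) W.Δ from W.map_Δ _]
          refine le_antisymm (Local.val_le_one_of_mem (hconst _)) ?_
          have h1 := Local.val_le_one_of_mem (A := A) (hconst W.Δ⁻¹)
          rw [map_inv₀, map_inv₀, inv_le_one₀] at h1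
          · exact h1
          · exact zero_lt_iff.2 (Valuation.ne_zero_iff _ |>.2 ((_root_.map_ne_zero _).2 hΔ)) }
    have hcurve : hgood.redCurve = (W.toAffine⁄(IsLocalRing.ResidueField A)) := by
      have hc : ∀ (a : F) (ha : algebraMap F (FF W) a ∈ A),
          π ⟨algebraMap F (FF W) a, ha⟩ = algebraMap F (IsLocalRing.ResidueField A) a := by
        intro a ha
        show _ = π (j.codRestrict A.toSubring hjA (algebraMap F _ a))
        congr 1
      ext <;> exact hc _ _
    set ρ : (EL W).Point →+ (W.toAffine⁄(IsLocalRing.ResidueField A)).Point :=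
      (castPoint hcurve).comp hgood.redHom with hρ
    -- the generic point specialises to the point
    set tb : W.toAffine.CoordinateRing ⧸ m := Ideal.Quotient.mk m (algebraMap F[X] _ X)
    set sb : W.toAffine.CoordinateRing ⧸ m := Ideal.Quotient.mk m (AdjoinRoot.root _)
    have hts : (W.toAffine⁄(W.toAffine.CoordinateRing ⧸ m)).Nonsingular tb sb := by
      refine (W.toAffine.baseChange_nonsingular hebar_inj tb sb).1 ?_
      show (W.toAffine⁄Ω).Nonsingular (e (algebraMap F[X] _ X)) (e (AdjoinRoot.root _))
      rw [evalAlg_algebraMap, evalAlg_root, aeval_X]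
      exact h
    set R : (W.toAffine⁄(W.toAffine.CoordinateRing ⧸ m)).Point := .some tb sb hts
    have hRΩ : Affine.Point.map (W' := W.toAffine) ebar R = .some c β h := by
      simp only [R, Affine.Point.map_some, Affine.Point.some.injEq]
      exact ⟨(evalAlg_algebraMap h.1 X).trans (aeval_X c), evalAlg_root h.1⟩
    have hρQ : ρ (genPoint W hΔ) = Affine.Point.map (W' := W.toAffine) ψbar R := by
      rw [hρ, AddMonoidHom.comp_apply, GoodPlace.redHom_apply, genPoint,
        hgood.red_some _ (show genX W ∈ A from hjA _), castPoint_some]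
      rfl
    have hρφ : ρ (frobPoint hΔ) = frobMap W _ (ρ (genPoint W hΔ)) := by
      obtain ⟨h₁, hP⟩ := frobPoint_eq (W := W) hΔ
      rw [hP, hρ, AddMonoidHom.comp_apply, AddMonoidHom.comp_apply, GoodPlace.redHom_apply,
        GoodPlace.redHom_apply, genPoint, hgood.red_some h₁ (pow_mem (hjA _) _),
        hgood.red_some _ (show genX W ∈ A from hjA _), castPoint_some, castPoint_some, frobMap, Affine.Point.map_some,
        Affine.Point.some.injEq]
      exact ⟨map_pow π (⟨genX W, hjA _⟩ : A) q, map_pow π (⟨genY W, hjA _⟩ : A) q⟩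
    have hρφ₂ : ρ (Affine.Point.map (W' := W.toAffine) (frobFF W) (frobPoint hΔ)) =
        frobMap W _ (ρ (frobPoint hΔ)) := by
      obtain ⟨h₁, hP⟩ := frobPoint_eq (W := W) hΔ
      rw [hP, hρ, AddMonoidHom.comp_apply, AddMonoidHom.comp_apply, GoodPlace.redHom_apply,
        GoodPlace.redHom_apply, hgood.red_some h₁ (pow_mem (hjA _) _), Affine.Point.map_some,
        hgood.red_some _ (show frobFF W (genX W ^ q) ∈ A by
          rw [frobFF_apply]; exact pow_mem (pow_mem (hjA _) _) _),
        castPoint_some, castPoint_some, frobMap, Affine.Point.map_some, Affine.Point.some.injEq]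
      exact ⟨map_pow π (⟨genX W ^ q, pow_mem (hjA _) _⟩ : A) q,
        map_pow π (⟨genY W ^ q, pow_mem (hjA _) _⟩ : A) q⟩
    have hspec : ρ (charPoint hΔ) = Affine.Point.map (W' := W.toAffine) ψbar (frobChar W _ R) := by
      rw [map_frobChar, ← hρQ, charPoint, map_add, map_sub, map_zsmul, map_zsmul, hρφ₂, hρφ]
      rfl
    have hΩ : frobChar W Ω (.some c β h) =
        Affine.Point.map (W' := W.toAffine) ebar (frobChar W _ R) := by
      rw [map_frobChar, hRΩ]
    constructor
    · intro h0
      rw [h0, map_zero, eq_comm] at hspec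
      rw [Affine.Point.map_injective _ (hspec.trans (map_zero _).symm)] at hΩ
      rw [hΩ, map_zero]
    · intro k y hy hk
      have hkA : ratIncl W (RatFunc.C k) ∈ A := by
        rw [← RatFunc.algebraMap_eq_C, AlgHom.commutes]; exact hconst k
      rw [hk, hρ, AddMonoidHom.comp_apply, GoodPlace.redHom_apply, hgood.red_some hy hkA,
        castPoint_some] at hspec
      rcases hG : frobChar W _ R with _ | ⟨x', y', h'⟩
      · rw [hG, ← Affine.Point.zero_def, map_zero] at hspec
        exact absurd hspec (Affine.Point.some_ne_zero _)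
      · rw [hG, Affine.Point.map_some, Affine.Point.some.injEq] at hspec
        rw [hG, Affine.Point.map_some] at hΩ
        have hx' : x' = algebraMap F _ k := by
          refine ψbar.toRingHom.injective ?_
          show ψbar x' = ψbar (algebraMap F _ k)
          rw [← hspec.1, AlgHom.commutes]
          show π _ = π (j.codRestrict A.toSubring hjA (algebraMap F _ k))
          congr 1
          refine Subtype.ext ?_
          show ratIncl W (RatFunc.C k) = j (algebraMap F _ k)
          rw [← RatFunc.algebraMap_eq_C, AlgHom.commutes,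
            ← IsScalarTower.algebraMap_apply F W.toAffine.CoordinateRing (FF W)]
        subst hx'
        have he : ebar (algebraMap F _ k) = algebraMap F Ω k := ebar.commutes k
        refine ⟨ebar y', ?_, ?_⟩
        · rw [← he]; exact (W.toAffine.baseChange_nonsingular hebar_inj _ _).2 h'
        · rw [hΩ, Affine.Point.some.injEq]; exact ⟨he, rfl⟩
  rcases hc : charPoint hΔ with _ | ⟨x, y, hy⟩
  · left
    rintro (_ | ⟨c, β, h⟩) hP
    · exact absurd rfl hP
    · exact (key h).1 (by rw [hc]; rfl)
  · right
    rw [hc] at hmem hdeg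
    obtain ⟨z, rfl⟩ := hmem
    obtain ⟨k, rfl⟩ := exists_eq_C_of_ratDeg_eq_zero (x := z) (by
      rw [← invFun_ratIncl (W := W) z]; exact hdeg)
    refine ⟨k, ?_⟩
    rintro (_ | ⟨c, β, h⟩) hP
    · exact absurd rfl hP
    · exact (key h).2 k y hy hc

/-- **Hasse's theorem**: `φ² - a φ + q = 0`. -/
theorem frobenius_char_eq (hΔ : W.Δ ≠ 0) {Ω : Type*} [Field Ω] [Algebra F Ω] [DecidableEq Ω]
    [Algebra.IsAlgebraic F Ω] (P : (W.toAffine⁄Ω).Point) :
    frobMap W Ω (frobMap W Ω P) - W.traceOfFrobenius • frobMap W Ω P + (q : ℤ) • P = 0 := by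
  show frobChar W Ω P = 0
  let : DecidableEq (AlgebraicClosure Ω) := Classical.decEq _
  have : Algebra.IsAlgebraic F (AlgebraicClosure Ω) := Algebra.IsAlgebraic.trans F Ω _
  set f : Ω →ₐ[F] AlgebraicClosure Ω := IsScalarTower.toAlgHom F Ω _
  refine Affine.Point.map_injective (W' := W.toAffine) f ?_
  rw [map_zero, map_frobChar]
  set G := frobChar W (AlgebraicClosure Ω)
  rcases frobChar_at_point hΔ (AlgebraicClosure Ω) with h | ⟨k, hk⟩
  · by_cases hQ : Affine.Point.map (W' := W.toAffine) f P = 0
    · rw [hQ, map_zero]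
    · exact h _ hQ
  exfalso
  -- `G` would be injective with finite image
  have hinj : Function.Injective G := (injective_iff_map_eq_zero G).2 fun Q hQ => by
    by_contra hne
    obtain ⟨y, h, e⟩ := hk Q hne
    exact Affine.Point.some_ne_zero h (e.symm.trans hQ)
  set x₀ := algebraMap F (AlgebraicClosure Ω) k
  have hfin : (Set.range G).Finite := by
    have hsub : Set.range G ⊆ {0} ∪ {Q | ∃ y h, Q = .some x₀ y h} := by
      rintro _ ⟨Q, rfl⟩
      rcases eq_or_ne Q 0 with rfl | hQ
      · exact Or.inl (map_zero G)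
      · exact Or.inr (hk Q hQ)
    refine (Set.Finite.union (Set.finite_singleton _) ?_).subset hsub
    by_cases hex : ∃ Q₀, Q₀ ∈ {Q : (W.toAffine⁄(AlgebraicClosure Ω)).Point |
        ∃ y h, Q = .some x₀ y h}
    · obtain ⟨-, y₀, h₀, rfl⟩ := hex
      refine ((Set.finite_singleton (-Affine.Point.some x₀ y₀ h₀)).insert
        (Affine.Point.some x₀ y₀ h₀)).subset ?_
      rintro _ ⟨y, h, rfl⟩
      rcases Affine.Y_eq_of_X_eq h.1 h₀.1 rfl with rfl | e
      · exact Or.inl rfl
      · refine Or.inr ?_
        rw [Set.mem_singleton_iff, Affine.Point.neg_some, Affine.Point.some.injEq]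
        exact ⟨rfl, e⟩
    · rw [Set.eq_empty_iff_forall_notMem.2 fun Q hQ => hex ⟨Q, hQ⟩]
      exact Set.finite_empty
  have := hfin.to_subtype
  have : Finite (W.toAffine⁄(AlgebraicClosure Ω)).Point :=
    Finite.of_injective_finite_range hinj
  -- but there is a point above every abscissa
  have hΔ' : WeierstrassCurve.Δ (W.toAffine⁄(AlgebraicClosure Ω)) ≠ 0 := by
    show (W.map (algebraMap F _)).Δ ≠ 0
    rw [WeierstrassCurve.map_Δ]; exact (_root_.map_ne_zero _).2 hΔ
  set E := (W.toAffine⁄(AlgebraicClosure Ω))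
  have hsurj : ∀ x : AlgebraicClosure Ω, ∃ y, E.Nonsingular x y := fun x => by
    obtain ⟨y, hy⟩ := IsAlgClosed.exists_root
      (C (1 : AlgebraicClosure Ω) * X ^ 2 + C (E.a₁ * x + E.a₃) * X +
        C (-(x ^ 3 + E.a₂ * x ^ 2 + E.a₄ * x + E.a₆)))
      (by rw [degree_quadratic one_ne_zero]; exact two_ne_zero)
    simp only [IsRoot, eval_add, eval_mul, eval_C, eval_pow, eval_X, one_mul] at hy
    refine ⟨y, (Affine.equation_iff_nonsingular_of_Δ_ne_zero hΔ').1 ?_⟩
    rw [Affine.equation_iff]
    linear_combination hy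
  choose y hy using hsurj
  have : Finite (AlgebraicClosure Ω) := Finite.of_injective
    (fun x => (Affine.Point.some x (y x) (hy x) : E.Point))
    fun a b hab => (Affine.Point.some.inj hab).1
  exact not_finite (AlgebraicClosure Ω)

/-- **Hasse's bound.** -/
theorem trace_sq_le (hΔ : W.Δ ≠ 0) : W.traceOfFrobenius ^ 2 ≤ 4 * (q : ℤ) := by
  classical
  exact (charPoint_deg_and_bound (W := W) hΔ).2

end FermatAgent.Hasse
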