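import Fermat.Agent.Hasse.RatDeg
import Fermat.Agent.LocalP.XFormulas

/-!
# The exact parallelogram law for the degree of the abscissa

For a Weierstrass curve with constant coefficients, the degree of the abscissa of points with
abscissa in a rational function field is exactly a quadratic function.
-/

set_option autoImplicit false

namespace FermatAgent.Hasse

open WeierstrassCurve Polynomial
open scoped WeierstrassCurve.Affine

variable {R : Type*} [CommRing R]

/-- `sym2x` on pairs of homogeneous coordinates. -/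
def symT (a b c d : R) : Fin 3 → R := ![a * c, a * d + b * c, b * d]

/-- `addSubMap` on a triple. -/
def asMap (W : WeierstrassCurve R) (T : Fin 3 → R) : Fin 3 → R :=
  ![T 0 ^ 2 - W.b₄ * (T 0 * T 2) - W.b₆ * (T 1 * T 2) - W.b₈ * (T 2 * T 2),
    2 * (T 1 * T 0) + W.b₂ * (T 0 * T 2) + W.b₄ * (T 1 * T 2) + W.b₆ * (T 2 * T 2),
    T 1 ^ 2 - 4 * (T 0 * T 2)]

lemma asMap_eq_eval (W : WeierstrassCurve R) (T : Fin 3 → R) (i : Fin 3) :
    asMap W T i = (W.addSubMap i).eval T := by
  fin_cases i <;> simp [asMap, WeierstrassCurve.addSubMap] <;> ring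

lemma asMap_map {S : Type*} [CommRing S] (φ : R →+* S) (W : WeierstrassCurve R) (T : Fin 3 → R)
    (i : Fin 3) : φ (asMap W T i) = asMap (W.map φ) (fun j => φ (T j)) i := by
  fin_cases i <;> simp [asMap, map_ofNat]

lemma asMap_smul (W : WeierstrassCurve R) (T : Fin 3 → R) (μ : R) (i : Fin 3) :
    asMap W (fun j => μ * T j) i = μ ^ 2 * asMap W T i := by
  fin_cases i <;> simp [asMap] <;> ring

/-- The geometric meaning of `addSubMap`. -/
theorem exists_asMap_sym2x {L : Type*} [Field L] [DecidableEq L]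
    (E : WeierstrassCurve.Affine L) (hΔ : E.Δ ≠ 0) (P Q : E.Point) :
    ∃ κ : L, ∀ i, asMap E (P.sym2x Q) i = κ * (P + Q).sym2x (P - Q) i := by
  have : E.IsElliptic := ⟨isUnit_iff_ne_zero.2 hΔ⟩
  have single : ∀ (R : E.Point), ∃ κ : L, ∀ i,
      asMap E ((0 : E.Point).sym2x R) i = κ * R.sym2x (-R) i := fun R => by
    refine ⟨1, fun i => ?_⟩
    rcases R with _ | ⟨x, y, h⟩
    · fin_cases i <;> simp [asMap, ← Affine.Point.zero_def]
    · fin_cases i <;> simp [asMap, Affine.Point.neg_some] <;> ring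
  rcases eq_or_ne P 0 with rfl | hP
  · rw [zero_add, zero_sub]; exact single Q
  rcases eq_or_ne Q 0 with rfl | hQ
  · rw [add_zero, sub_zero, Affine.Point.sym2x_comm]
    obtain ⟨κ, hκ⟩ := single P
    exact ⟨κ, fun i => by rw [hκ, Affine.Point.sym2x_neg_right]⟩
  rcases P with _ | ⟨x₁, y₁, h₁⟩
  · exact absurd rfl hP
  rcases Q with _ | ⟨x₂, y₂, h₂⟩
  · exact absurd rfl hQ
  by_cases hx : x₁ = x₂
  · -- one of `P ± Q` is zero
    have dbl : ∀ (x y : L) (h : E.Nonsingular x y), ∃ κ : L, ∀ i,
        asMap E ![x * x, x + x, 1] i =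
          κ * (Affine.Point.some x y h + .some x y h).sym2x 0 i := by
      intro x y h
      have hψ := LocalP.Ψ₂Sq_eval_eq h.1
      by_cases hy : y = E.negY x y
      · rw [Affine.Point.add_self_of_Y_eq hy, Affine.Point.sym2x_zero_zero]
        refine ⟨asMap E ![x * x, x + x, 1] 0, fun i => ?_⟩
        rw [← hy, sub_self, zero_pow two_ne_zero] at hψ
        fin_cases i <;> simp [asMap]
        · linear_combination hψ
        · ring
      · rw [Affine.Point.add_self_of_Y_ne hy, Affine.Point.sym2x_some_zero]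
        have hX := LocalP.addX_self h.1 hy
        refine ⟨4 * x ^ 3 + E.b₂ * x ^ 2 + 2 * E.b₄ * x + E.b₆, fun i => ?_⟩
        fin_cases i <;> simp [asMap]
        · simp only [Affine.addX] at hX
          linear_combination -hX
        · ring
        · ring
    subst hx
    obtain ⟨κ, hκ⟩ := dbl x₁ y₁ h₁
    refine ⟨κ, fun i => ?_⟩
    rw [Affine.Point.sym2x_some_some, hκ]
    rcases Affine.Y_eq_of_X_eq h₁.1 h₂.1 rfl with rfl | hy
    · rw [sub_self]
    · have hQP : Affine.Point.some x₁ y₂ h₂ = -Affine.Point.some x₁ y₁ h₁ := by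
        rw [Affine.Point.neg_some, Affine.Point.some.injEq]
        exact ⟨rfl, by rw [hy, Affine.negY_negY]⟩
      rw [hQP, add_neg_cancel, sub_neg_eq_add, Affine.Point.sym2x_comm 0]
  · have hS := LocalP.addX_add_addX_neg h₁.1 h₂.1 hx
    have hM := LocalP.addX_mul_addX_neg h₁.1 h₂.1 hx
    refine ⟨(x₁ - x₂) ^ 2, fun i => ?_⟩
    rw [sub_eq_add_neg (Affine.Point.some x₁ y₁ h₁), Affine.Point.neg_some,
      Affine.Point.add_of_X_ne hx,
      Affine.Point.add_of_X_ne hx, Affine.Point.sym2x_some_some, Affine.Point.sym2x_some_some]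
    fin_cases i <;> simp [asMap]
    · simp only [Affine.addX, Affine.negY] at hM
      linear_combination -hM
    · simp only [Affine.addX, Affine.negY] at hS
      linear_combination -hS
    · ring

variable {F : Type*} [Field F]

lemma prim3_symT {a b c d : F[X]} (h₁ : IsCoprime a b) (h₂ : IsCoprime c d) :
    Prim3 (symT a b c d) := by
  by_contra hne
  obtain ⟨M, hM, hle⟩ := Ideal.exists_le_maximal _ hne
  have hmem : ∀ i, symT a b c d i ∈ M := fun i => hle (Ideal.subset_span ⟨i, rfl⟩)
  have not_both : ∀ {p q : F[X]}, IsCoprime p q → p ∈ M → q ∉ M := by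
    rintro p q ⟨u, v, e⟩ hp hq
    exact hM.ne_top ((Ideal.eq_top_iff_one M).2 (e ▸ add_mem (M.mul_mem_left u hp) (M.mul_mem_left v hq)))
  have h0 : a * c ∈ M := hmem 0
  have h1 : a * d + b * c ∈ M := hmem 1
  have h2 : b * d ∈ M := hmem 2
  have hp := hM.isPrime
  rcases hp.mem_or_mem h0 with ha | hc
  · have hbc : b * c ∈ M := by simpa using sub_mem h1 (M.mul_mem_right d ha)
    have hc := (hp.mem_or_mem hbc).resolve_left (not_both h₁ ha)
    exact (hp.mem_or_mem h2).elim (not_both h₁ ha) (not_both h₂ hc)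
  · have had : a * d ∈ M := by simpa using sub_mem h1 (M.mul_mem_left b hc)
    have ha := (hp.mem_or_mem had).resolve_right (not_both h₂ hc)
    exact (hp.mem_or_mem h2).elim (not_both h₁ ha) (not_both h₂ hc)

lemma coeff_max_ne_zero {a b : F[X]} (h : IsCoprime a b) :
    a.coeff (max a.natDegree b.natDegree) ≠ 0 ∨ b.coeff (max a.natDegree b.natDegree) ≠ 0 := by
  have := heval_ne_zero (RingHom.id F) h (α := 1) (β := 0) (Or.inl one_ne_zero)
  simpa [heval_zero_right] using this

lemma tdeg_symT {a b c d : F[X]} (h₁ : IsCoprime a b) (h₂ : IsCoprime c d) :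
    tdeg (symT a b c d) = max a.natDegree b.natDegree + max c.natDegree d.natDegree := by
  set m := max a.natDegree b.natDegree
  set n := max c.natDegree d.natDegree
  have ha : a.natDegree ≤ m := le_max_left _ _
  have hb : b.natDegree ≤ m := le_max_right _ _
  have hc : c.natDegree ≤ n := le_max_left _ _
  have hd : d.natDegree ≤ n := le_max_right _ _
  refine tdeg_eq_of_coeff_ne_zero (fun i => ?_) ?_
  · fin_cases i <;> simp only [symT]
    · exact natDegree_mul_le_of_le ha hc
    · exact natDegree_add_le_of_degree_le (natDegree_mul_le_of_le ha hd)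
        (natDegree_mul_le_of_le hb hc)
    · exact natDegree_mul_le_of_le hb hd
  · intro e
    have e0 : (a * c).coeff (m + n) = 0 := congrFun e 0
    have e1 : (a * d + b * c).coeff (m + n) = 0 := congrFun e 1
    have e2 : (b * d).coeff (m + n) = 0 := congrFun e 2
    simp only [coeff_add, coeff_mul_add_eq_of_natDegree_le ha hc,
      coeff_mul_add_eq_of_natDegree_le ha hd, coeff_mul_add_eq_of_natDegree_le hb hc,
      coeff_mul_add_eq_of_natDegree_le hb hd] at e0 e1 e2
    rw [mul_eq_zero] at e0 e2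
    rcases coeff_max_ne_zero h₁ with hA | hA <;> rcases coeff_max_ne_zero h₂ with hC | hC
    · tauto
    · rcases e0 with h | h
      · exact hA h
      · rw [h, mul_zero, add_zero, mul_eq_zero] at e1
        exact e1.elim hA hC
    · rcases e2 with h | h
      · exact hA h
      · rw [h, mul_zero, zero_add, mul_eq_zero] at e1
        exact e1.elim hA hC
    · tauto

variable (W : WeierstrassCurve F) [W.IsElliptic]

lemma prim3_asMap {T : Fin 3 → F[X]} (hT : Prim3 T) : Prim3 (asMap (W.map C) T) := by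
  refine top_le_iff.1 ?_
  rw [← Ideal.span_pow_eq_top _ hT 4, Ideal.span_le]
  rintro _ ⟨_, ⟨i, rfl⟩, rfl⟩
  show T i ^ 4 ∈ _
  rw [← addSubMapCoeff_condition (W.map C) T i]
  refine Ideal.sum_mem _ fun j _ => Ideal.mul_mem_left _ _ ?_
  rw [← asMap_eq_eval]
  exact Ideal.subset_span ⟨j, rfl⟩

lemma tdeg_asMap {T : Fin 3 → F[X]} (hT : Prim3 T) : tdeg (asMap (W.map C) T) = 2 * tdeg T := by
  set m := tdeg T
  have hd := natDegree_le_tdeg T
  have hpair : ∀ i j, (T i * T j).natDegree ≤ 2 * m ∧
      (T i * T j).coeff (2 * m) = (T i).coeff m * (T j).coeff m := fun i j => by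
    rw [two_mul]
    exact ⟨natDegree_mul_le_of_le (hd i) (hd j), coeff_mul_add_eq_of_natDegree_le (hd i) (hd j)⟩
  refine tdeg_eq_of_coeff_ne_zero (fun i => ?_) ?_
  · have hC : ∀ (r : F) (i j : Fin 3), (C r * (T i * T j)).natDegree ≤ 2 * m := fun r i j =>
      (natDegree_C_mul_le _ _).trans (hpair i j).1
    fin_cases i <;> simp only [asMap, sq, WeierstrassCurve.map_b₂, WeierstrassCurve.map_b₄,
      WeierstrassCurve.map_b₆, WeierstrassCurve.map_b₈, ← map_ofNat C]
    · exact natDegree_sub_le_of_le (natDegree_sub_le_of_le (natDegree_sub_le_of_le (hpair 0 0).1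
        (hC _ 0 2)) (hC _ 1 2)) (hC _ 2 2) |>.trans (by simp)
    · exact natDegree_add_le_of_degree_le (natDegree_add_le_of_degree_le
        (natDegree_add_le_of_degree_le (hC _ 1 0) (hC _ 0 2)) (hC _ 1 2)) (hC _ 2 2)
    · exact natDegree_sub_le_of_le (hpair 1 1).1 (hC _ 0 2) |>.trans (by simp)
  · have hne : (fun i => (T i).coeff m) ≠ 0 := by
      intro e
      have hz : ∀ i, (T i).coeff m = 0 := congrFun e
      obtain ⟨k, hk⟩ : ∃ k, (T k).natDegree = m := by
        by_contra! hh
        have h0 := hh 0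
        have h1 := hh 1
        have h2 := hh 2
        simp only [m, tdeg] at h0 h1 h2
        omega
      have hz0 : ∀ i, (T i).natDegree = m → T i = 0 := fun i hi =>
        leadingCoeff_eq_zero.1 (by rw [leadingCoeff, hi]; exact hz i)
      have hm : m = 0 := by rw [← hk, hz0 k hk, natDegree_zero]
      have h0 : ∀ i, T i = 0 := fun i => hz0 i (by have := hd i; omega)
      have h1 : (1 : F[X]) ∈ Ideal.span (Set.range T) := by rw [hT]; trivial
      have hbot : Ideal.span (Set.range T) = ⊥ := Ideal.span_eq_bot.2 (by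
        rintro _ ⟨i, rfl⟩; exact h0 i)
      rw [hbot] at h1
      exact one_ne_zero h1
    refine fun e => addSubMap_ne_zero W hne (funext fun i => ?_)
    rw [← asMap_eq_eval]
    refine Eq.trans ?_ (congrFun e i)
    fin_cases i <;> simp [asMap, sq, ← map_ofNat C, (hpair _ _).2, coeff_C_mul]

variable {L : Type*} [Field L] [Algebra F L] [DecidableEq L] (ι : RatFunc F →ₐ[F] L)

/-- The degree of the abscissa of a point whose abscissa is a rational function. -/
noncomputable def ptDeg : (W.toAffine⁄L).Point → ℕ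
  | .zero => 0
  | .some x _ _ => ratDeg (Function.invFun ι x)

/-- The abscissa is a rational function. -/
def HasXRat : (W.toAffine⁄L).Point → Prop
  | .zero => True
  | .some x _ _ => x ∈ Set.range ι

variable {W ι}

omit [W.IsElliptic] [DecidableEq L] in
lemma exists_rep {P : (W.toAffine⁄L).Point} (hP : HasXRat W ι P) :
    ∃ a b : F[X], IsCoprime a b ∧ max a.natDegree b.natDegree = ptDeg W ι P ∧
      ∃ μ : L, μ ≠ 0 ∧ ι (algebraMap F[X] _ a) = μ * P.xRep 0 ∧
        ι (algebraMap F[X] _ b) = μ * P.xRep 1 := by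
  rcases P with _ | ⟨x, y, h⟩
  · exact ⟨1, 0, isCoprime_one_left, by simp [ptDeg], 1, one_ne_zero, by
      simp [← Affine.Point.zero_def], by simp [← Affine.Point.zero_def]⟩
  · obtain ⟨z, rfl⟩ := hP
    have hinv : Function.invFun ι (ι z) = z := Function.leftInverse_invFun ι.injective z
    have hd : ι (algebraMap F[X] _ z.denom) ≠ 0 :=
      (_root_.map_ne_zero ι).2 (algebraMap_ne_zero_iff.2 z.denom_ne_zero)
    refine ⟨z.num, z.denom, RatFunc.isCoprime_num_denom z, by simp [ptDeg, ratDeg, hinv],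
      _, hd, ?_, by simp⟩
    simp only [Affine.Point.xRep_some, Matrix.cons_val_zero]
    rw [← map_mul, mul_comm]
    congr 1
    nth_rewrite 2 [← z.num_div_denom]
    exact (div_mul_cancel₀ _ (algebraMap_ne_zero_iff.2 z.denom_ne_zero)).symm

/-- The parallelogram law. -/
theorem ptDeg_parallelogram {P Q : (W.toAffine⁄L).Point} (hP : HasXRat W ι P) (hQ : HasXRat W ι Q)
    (hA : HasXRat W ι (P + Q)) (hS : HasXRat W ι (P - Q)) :
    ptDeg W ι (P + Q) + ptDeg W ι (P - Q) = 2 * ptDeg W ι P + 2 * ptDeg W ι Q := by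
  obtain ⟨a, b, hab, hm, μ, hμ, ha, hb⟩ := exists_rep hP
  obtain ⟨c, d, hcd, hn, ν, hν, hc, hd⟩ := exists_rep hQ
  obtain ⟨a', b', hab', hm', μ', hμ', ha', hb'⟩ := exists_rep hA
  obtain ⟨c', d', hcd', hn', ν', hν', hc', hd'⟩ := exists_rep hS
  have hT := prim3_symT hab hcd
  have hT' := prim3_symT hab' hcd'
  let j : F[X] →+* L := (ι : RatFunc F →+* L).comp (algebraMap F[X] (RatFunc F))
  have hj : ∀ p, j p = ι (algebraMap F[X] _ p) := fun p => rfl
  have hmapW : (W.map C).map j = (W.toAffine⁄L) := by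
    rw [WeierstrassCurve.map_map]
    congr 1
    ext r
    simp [j, RatFunc.algebraMap_C, ← RatFunc.algebraMap_eq_C]
  have hj1 : (fun i => j (symT a b c d i)) = fun i => μ * ν * P.sym2x Q i := by
    funext i
    fin_cases i <;> simp [symT, hj, ha, hb, hc, hd, Affine.Point.sym2x] <;> ring
  have hj2 : ∀ i, j (symT a' b' c' d' i) = μ' * ν' * (P + Q).sym2x (P - Q) i := fun i => by
    fin_cases i <;> simp [symT, hj, ha', hb', hc', hd', Affine.Point.sym2x] <;> ring
  have hΔ : (W.toAffine⁄L).Δ ≠ 0 := by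
    rw [show (W.toAffine⁄L) = W.map (algebraMap F L) from rfl, WeierstrassCurve.map_Δ]
    exact (_root_.map_ne_zero _).2 W.isUnit_Δ.ne_zero
  obtain ⟨κ, hκ⟩ := exists_asMap_sym2x (W.toAffine⁄L) hΔ P Q
  set G := asMap (W.map C) (symT a b c d)
  set T' := symT a' b' c' d'
  have hG : ∀ i, j (G i) = ((μ * ν) ^ 2 * κ / (μ' * ν')) * j (T' i) := fun i => by
    rw [asMap_map, hmapW, hj1, hj2, asMap_smul]
    erw [hκ i]
    field_simp
  obtain ⟨k, hk⟩ : ∃ k, T' k ≠ 0 := by
    by_contra! e
    have h1 : (1 : F[X]) ∈ Ideal.span (Set.range T') := by rw [hT']; trivial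
    rw [Ideal.span_eq_bot.2 (by rintro _ ⟨i, rfl⟩; exact e i)] at h1
    exact one_ne_zero h1
  have hprop : ∀ i, algebraMap F[X] (RatFunc F) (G i) = algebraMap F[X] (RatFunc F) (G k) /
      algebraMap F[X] (RatFunc F) (T' k) * algebraMap F[X] (RatFunc F) (T' i) := fun i => by
    rw [div_mul_eq_mul_div, eq_div_iff (algebraMap_ne_zero_iff.2 hk)]
    refine ι.injective ?_
    rw [map_mul, map_mul]
    show j (G i) * j (T' k) = j (G k) * j (T' i)
    rw [hG i, hG k]
    ring
  have := tdeg_eq_of_proportional (prim3_asMap W hT) hT' _ hprop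
  rw [tdeg_asMap W hT, tdeg_symT hab hcd, tdeg_symT hab' hcd', hm, hn, hm', hn'] at this
  omega

end FermatAgent.Hasse
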