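import Fermat.Agent.Hasse.Count
import Fermat.Prelude.Def_FLTPrelim_Modularity

/-!
# The degree form on the points generated by `Q`, `φ`, `φ ^ 2`

`deg x(φ² - a φ + q) = 0` with `a` the trace of Frobenius; the Hasse bound.
-/

set_option autoImplicit false

namespace FermatAgent.Hasse

open WeierstrassCurve Polynomial
open scoped WeierstrassCurve.Affine

/-- The bilinear form of a function satisfying the parallelogram law. -/
lemma parallelogram_biadd {G : Type*} [AddCommGroup G] (h : G → ℤ) (_h0 : h 0 = 0)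
    (hp : ∀ P R, h (P + R) + h (P - R) = 2 * h P + 2 * h R) (P R S : G) :
    h (P + R + S) - h (P + R) - h S = (h (P + S) - h P - h S) + (h (R + S) - h R - h S) := by
  have e1 := hp (P + R) S
  have e2 := hp (P + S) R
  have e3 := hp P (R - S)
  have e4 := hp R S
  rw [show P + R + S = P + R + S from rfl] at e1
  rw [show P + S + R = P + R + S by abel] at e2
  rw [show P + (R - S) = P + R - S by abel, show P - (R - S) = P + S - R by abel] at e3
  linarith

/-- A degree form. -/
structure DegForm (G : Type*) [AddCommGroup G] where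
  h : G → ℤ
  h0 : h 0 = 0
  par : ∀ P R, h (P + R) + h (P - R) = 2 * h P + 2 * h R
  nonneg : ∀ P, 0 ≤ h P

namespace DegForm

variable {G : Type*} [AddCommGroup G] (d : DegForm G)

/-- The polar form as a homomorphism. -/
def polar (S : G) : G →+ ℤ :=
  AddMonoidHom.mk' (fun P => d.h (P + S) - d.h P - d.h S) fun P R => by
    have := parallelogram_biadd d.h d.h0 d.par P R S
    linarith

lemma polar_apply (S P : G) : d.polar S P = d.h (P + S) - d.h P - d.h S := rfl

lemma polar_comm (P S : G) : d.polar S P = d.polar P S := by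
  rw [polar_apply, polar_apply, add_comm]; ring

lemma h_sub (P R : G) : d.h (P - R) = d.h P + d.h R - d.polar R P := by
  have := d.par P R
  rw [polar_apply]; linarith

lemma h_zsmul (n : ℤ) (P : G) : d.h (n • P) = n ^ 2 * d.h P := by
  have e1 : d.polar P P = 2 * d.h P := by
    have := d.par P P
    rw [sub_self, d.h0] at this
    rw [polar_apply]; linarith
  have e2 : d.polar (n • P) (n • P) = 2 * d.h (n • P) := by
    have := d.par (n • P) (n • P)
    rw [sub_self, d.h0] at this
    rw [polar_apply]; linarith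
  rw [map_zsmul, d.polar_comm, map_zsmul, e1, smul_eq_mul, smul_eq_mul] at e2
  linarith

lemma h_comb (a b c : ℤ) (A B C : G) :
    d.h (a • A + b • B + c • C) = a ^ 2 * d.h A + b ^ 2 * d.h B + c ^ 2 * d.h C +
      a * b * d.polar B A + a * c * d.polar C A + b * c * d.polar C B := by
  have e1 : d.h (a • A + b • B + c • C) =
      d.h (a • A + b • B) + d.h (c • C) + d.polar (c • C) (a • A + b • B) := by
    rw [polar_apply]; ring
  have e2 : d.h (a • A + b • B) = d.h (a • A) + d.h (b • B) + d.polar (b • B) (a • A) := by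
    rw [polar_apply]; ring
  have e3 : ∀ (m n : ℤ) (P R : G), d.polar (n • R) (m • P) = m * n * d.polar R P := by
    intro m n P R
    rw [map_zsmul, d.polar_comm, map_zsmul, d.polar_comm, smul_eq_mul, smul_eq_mul]; ring
  rw [e1, e2, map_add, e3, e3, e3, d.h_zsmul, d.h_zsmul, d.h_zsmul]
  ring

end DegForm

variable {F : Type*} [Field F] [Fintype F] {W : WeierstrassCurve F} [DecidableEq (FF W)]

local notation "q" => Fintype.card F

omit [Fintype F] [DecidableEq (FF W)] in
lemma invFun_ratIncl (z : RatFunc F) :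
    Function.invFun (ratIncl W) (ratIncl W z) = z :=
  Function.leftInverse_invFun (ratIncl W).injective z

omit [Fintype F] [DecidableEq (FF W)] in
lemma ptDeg_zero : ptDeg W (ratIncl W) (0 : (EL W).Point) = 0 := rfl

/-- The degree as a degree form on anti-invariant points. -/
noncomputable def degForm (hΔ : W.Δ ≠ 0) : DegForm (antiPoints (W := W)) where
  h P := ptDeg W (ratIncl W) (P : (EL W).Point)
  h0 := by simp [ptDeg_zero]
  par P R := by
    have : W.IsElliptic := ⟨isUnit_iff_ne_zero.2 hΔ⟩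
    have := ptDeg_parallelogram (W := W) (ι := ratIncl W) (hasXRat_of_mem hΔ P.2)
      (hasXRat_of_mem hΔ R.2) (hasXRat_of_mem hΔ (P + R).2) (hasXRat_of_mem hΔ (P - R).2)
    push_cast
    exact_mod_cast this
  nonneg P := Int.natCast_nonneg _

lemma ptDeg_map_frob {P : (EL W).Point} (hP : HasXRat W (ratIncl W) P) :
    ptDeg W (ratIncl W) (Affine.Point.map (W' := W.toAffine) (frobFF W) P) =
      q * ptDeg W (ratIncl W) P := by
  rcases P with _ | ⟨x, y, h⟩
  · simp [← Affine.Point.zero_def, ptDeg_zero]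
  · obtain ⟨z, rfl⟩ := hP
    show ratDeg (Function.invFun (ratIncl W) (frobFF W _)) = q * ratDeg _
    rw [frobFF_apply, ← map_pow, invFun_ratIncl, invFun_ratIncl, ratDeg_pow]

omit [Fintype F] in
/-- Substitution of a point with non-constant abscissa multiplies degrees. -/
lemma ptDeg_map_endo {X' Y' : FF W} (heq : (EL W).Equation X' Y')
    (htr : ∀ p : F[X], p ≠ 0 → aeval X' p ≠ 0) (z : RatFunc F) (hz : ratIncl W z = X')
    (hz0 : ratDeg z ≠ 0) {P : (EL W).Point} (hP : HasXRat W (ratIncl W) P) :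
    ptDeg W (ratIncl W) (Affine.Point.map (W' := W.toAffine) (endoOfPoint heq htr) P) =
      ptDeg W (ratIncl W) P * ratDeg z := by
  rcases P with _ | ⟨x, y, h⟩
  · simp [← Affine.Point.zero_def, ptDeg_zero]
  · obtain ⟨r, rfl⟩ := hP
    show ratDeg (Function.invFun (ratIncl W) (endoOfPoint heq htr _)) = ratDeg _ * _
    have : endoOfPoint heq htr (ratIncl W r) =
        ratIncl W (aeval z r.num / aeval z r.denom) := by
      conv_lhs => rw [← r.num_div_denom]
      rw [map_div₀, map_div₀, map_div₀, ratIncl_algebraMap, ratIncl_algebraMap,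
        ← aeval_algHom_apply, ← aeval_algHom_apply, endoOfPoint_genX, ← hz,
        ← aeval_algHom_apply, ← aeval_algHom_apply]
    rw [this, invFun_ratIncl, invFun_ratIncl, ratDeg_comp hz0 r.denom_ne_zero (RatFunc.isCoprime_num_denom r)]
    rfl

variable (hΔ : W.Δ ≠ 0)

/-- `φ² - a φ + q` on the generic point. -/
noncomputable def charPoint : (EL W).Point :=
  Affine.Point.map (W' := W.toAffine) (frobFF W) (frobPoint hΔ) -
    W.traceOfFrobenius • frobPoint hΔ + (q : ℤ) • genPoint W hΔ

lemma charPoint_mem : charPoint hΔ ∈ antiPoints (W := W) :=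
  add_mem (sub_mem (map_mem_antiPoints _ conjFF_comp_frobFF (frobPoint_mem hΔ))
    (zsmul_mem (frobPoint_mem hΔ) _)) (zsmul_mem (genPoint_mem hΔ) _)

omit [Fintype F] [DecidableEq (FF W)] in
lemma ptDeg_genPoint : ptDeg W (ratIncl W) (genPoint W hΔ) = 1 := by
  show ratDeg (Function.invFun (ratIncl W) (genX W)) = 1
  have h : genX W = ratIncl W (algebraMap F[X] _ X) := by rw [ratIncl_algebraMap, aeval_X]
  rw [h, invFun_ratIncl, ratDeg_algebraMap, natDegree_X]

omit [DecidableEq (FF W)] in
lemma traceOfFrobenius_eq : W.traceOfFrobenius = (q : ℤ) + 1 - Nat.card W.toAffine.Point := by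
  rw [WeierstrassCurve.traceOfFrobenius, WeierstrassCurve.card, Nat.card_eq_fintype_card]

theorem charPoint_deg_and_bound :
    ptDeg W (ratIncl W) (charPoint hΔ) = 0 ∧ W.traceOfFrobenius ^ 2 ≤ 4 * (q : ℤ) := by
  set d := degForm hΔ
  set Q : antiPoints (W := W) := ⟨_, genPoint_mem hΔ⟩ with hQdef
  set P : antiPoints (W := W) := ⟨_, frobPoint_mem hΔ⟩ with hPdef
  set P₂ : antiPoints (W := W) :=
    ⟨_, map_mem_antiPoints _ conjFF_comp_frobFF (frobPoint_mem hΔ)⟩ with hP₂def
  set a := W.traceOfFrobenius with ha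
  obtain ⟨hN, hne⟩ := ptDeg_frob_sub_add hΔ
  have hQ : d.h Q = 1 := by show ((ptDeg W _ _ : ℕ) : ℤ) = 1; rw [ptDeg_genPoint]; rfl
  have hP : d.h P = q := by
    show ((ptDeg W _ (frobPoint hΔ) : ℕ) : ℤ) = q
    rw [frobPoint, ptDeg_map_frob (hasXRat_of_mem hΔ (genPoint_mem hΔ)), ptDeg_genPoint, mul_one]
  have hP₂ : d.h P₂ = (q : ℤ) ^ 2 := by
    show ((ptDeg W _ (Affine.Point.map (W' := W.toAffine) (frobFF W) (frobPoint hΔ)) : ℕ) : ℤ) = _
    rw [ptDeg_map_frob (hasXRat_of_mem hΔ (frobPoint_mem hΔ))]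
    have : ptDeg W (ratIncl W) (frobPoint hΔ) = q :=
      Int.ofNat.inj (hP : ((ptDeg W (ratIncl W) (frobPoint hΔ) : ℕ) : ℤ) = _)
    rw [this]; push_cast; ring
  have hsub : d.h (P - Q) = q + 1 - a := by
    show ((ptDeg W _ (frobPoint hΔ - genPoint W hΔ) : ℕ) : ℤ) = _
    rw [hN, ha, traceOfFrobenius_eq]; ring
  have hPQ : d.polar Q P = a := by
    have := d.h_sub P Q; rw [hsub, hP, hQ] at this; linarith
  have hadd : d.h (P + Q) = q + 1 + a := by
    have := d.polar_apply Q P; rw [hPQ, hP, hQ] at this; linarith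
  have hP₂P : d.h (P₂ - P) = q * (q + 1 - a) := by
    show ((ptDeg W _ (Affine.Point.map (W' := W.toAffine) (frobFF W) (frobPoint hΔ) -
      frobPoint hΔ) : ℕ) : ℤ) = _
    conv_lhs => rw [show Affine.Point.map (W' := W.toAffine) (frobFF W) (frobPoint hΔ) -
      frobPoint hΔ = Affine.Point.map (W' := W.toAffine) (frobFF W)
        (frobPoint hΔ - genPoint W hΔ) by rw [map_sub]; rfl]
    rw [ptDeg_map_frob (hasXRat_of_mem hΔ (sub_mem (frobPoint_mem hΔ) (genPoint_mem hΔ))),
      Nat.cast_mul, ← hsub]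
    rfl
  -- substitute `S = φ + Q`
  have hP₂Q : d.h (P₂ - Q) = (q + 1 - a) * (q + 1 + a) := by
    have hS := (antiPoints (W := W)).add_mem (frobPoint_mem hΔ) (genPoint_mem hΔ)
    rcases hc : frobPoint hΔ + genPoint W hΔ with _ | ⟨X', Y', hXY⟩
    · exact absurd (by rw [hc]; rfl) hne
    rw [hc] at hS hne
    obtain ⟨z, hz⟩ := hasXRat_of_mem hΔ hS
    have hz0 : ratDeg z ≠ 0 := by
      intro e
      apply hne
      show ratDeg (Function.invFun (ratIncl W) X') = 0
      rw [← hz, invFun_ratIncl, e]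
    have htr : ∀ p : F[X], p ≠ 0 → aeval X' p ≠ 0 := fun p hp => by
      rw [← hz, aeval_algHom_apply]
      exact (_root_.map_ne_zero _).2 (aeval_ne_zero_of_ratDeg_ne_zero hz0 hp)
    set σ := endoOfPoint hXY.1 htr
    have hσQ : Affine.Point.map (W' := W.toAffine) σ (genPoint W hΔ) = .some X' Y' hXY := by
      simp only [genPoint, Affine.Point.map_some, Affine.Point.some.injEq]
      exact ⟨endoOfPoint_genX _ _, endoOfPoint_genY _ _⟩
    have hσφ : σ.comp (frobFF W) = (frobFF W).comp σ :=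
      AlgHom.ext fun x => by simp [frobFF_apply]
    have hσP : Affine.Point.map (W' := W.toAffine) σ (frobPoint hΔ) =
        Affine.Point.map (W' := W.toAffine) (frobFF W) (.some X' Y' hXY) := by
      rw [frobPoint, Affine.Point.map_map, hσφ, ← Affine.Point.map_map, hσQ]
    have hσ : Affine.Point.map (W' := W.toAffine) σ (frobPoint hΔ - genPoint W hΔ) =
        Affine.Point.map (W' := W.toAffine) (frobFF W) (frobPoint hΔ) - genPoint W hΔ := by
      rw [map_sub, hσP, hσQ, ← hc, map_add]
      rw [show Affine.Point.map (W' := W.toAffine) (frobFF W) (genPoint W hΔ) = frobPoint hΔ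
        from rfl]
      abel
    show ((ptDeg W _ (Affine.Point.map (W' := W.toAffine) (frobFF W) (frobPoint hΔ) -
      genPoint W hΔ) : ℕ) : ℤ) = _
    rw [← hσ, ptDeg_map_endo hXY.1 htr z hz hz0
      (hasXRat_of_mem hΔ (sub_mem (frobPoint_mem hΔ) (genPoint_mem hΔ))), Nat.cast_mul, ← hsub,
      ← hadd]
    congr 1
    show _ = ((ptDeg W (ratIncl W) (frobPoint hΔ + genPoint W hΔ) : ℕ) : ℤ)
    rw [hc]
    show _ = ((ratDeg (Function.invFun (ratIncl W) X') : ℕ) : ℤ)
    rw [← hz, invFun_ratIncl]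
  have e1 : d.polar P P₂ = q * a := by
    have := d.h_sub P₂ P; rw [hP₂P, hP₂, hP] at this; linarith
  have e2 : d.polar Q P₂ = a ^ 2 - 2 * q := by
    have := d.h_sub P₂ Q; rw [hP₂Q, hP₂, hQ] at this; linarith
  have hG : d.h ((1 : ℤ) • P₂ + (-a) • P + (q : ℤ) • Q) = 0 := by
    rw [d.h_comb, hP₂, hP, hQ, e1, e2, hPQ]; ring
  constructor
  · have : ((ptDeg W (ratIncl W) (charPoint hΔ) : ℕ) : ℤ) = 0 := by
      rw [← hG]
      show _ = ((ptDeg W (ratIncl W) _ : ℕ) : ℤ)
      congr 2
      push_cast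
      rw [charPoint, one_smul, neg_smul, ← sub_eq_add_neg]
    exact_mod_cast this
  · have h1 := d.nonneg ((2 : ℤ) • P + (-a) • Q + (0 : ℤ) • P₂)
    rw [d.h_comb, hP, hQ, hPQ] at h1
    ring_nf at h1
    linarith

end FermatAgent.Hasse
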