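import Mathlib

/-!
# The degree of a rational function

`ratDeg x = max (deg num) (deg den)`: its value on any coprime representation, behaviour under
powers and composition, and degrees of primitive polynomial triples.
-/

set_option autoImplicit false

namespace FermatAgent.Hasse

open Polynomial

variable {F : Type*} [Field F]

/-- The degree of a rational function. -/
noncomputable def ratDeg (x : RatFunc F) : ℕ := max x.num.natDegree x.denom.natDegree

/-- A rational function presented by polynomials. -/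
noncomputable def mkRat (a b : F[X]) : RatFunc F :=
  algebraMap F[X] (RatFunc F) a / algebraMap F[X] (RatFunc F) b

lemma algebraMap_ne_zero_iff {a : F[X]} : algebraMap F[X] (RatFunc F) a ≠ 0 ↔ a ≠ 0 :=
  map_ne_zero_iff _ (RatFunc.algebraMap_injective F)

lemma natDegree_eq_of_associated {a b : F[X]} (h : Associated a b) :
    a.natDegree = b.natDegree := natDegree_eq_of_degree_eq (degree_eq_degree_of_associated h)

theorem ratDeg_mkRat {a b : F[X]} (hb : b ≠ 0) (hab : IsCoprime a b) :
    ratDeg (mkRat a b) = max a.natDegree b.natDegree := by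
  set x := mkRat a b with hx
  have hd : x.denom ≠ 0 := RatFunc.denom_ne_zero x
  have h : x.num * b = a * x.denom := by
    apply RatFunc.algebraMap_injective F
    rw [map_mul, map_mul, ← div_eq_div_iff (algebraMap_ne_zero_iff.2 hd)
      (algebraMap_ne_zero_iff.2 hb), RatFunc.num_div_denom]
    rfl
  have hc := RatFunc.isCoprime_num_denom x
  have h1 : Associated x.denom b := associated_of_dvd_dvd
    (hc.symm.dvd_of_dvd_mul_left ⟨a, by rw [h, mul_comm]⟩)
    (hab.symm.dvd_of_dvd_mul_left ⟨x.num, by rw [← h, mul_comm]⟩)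
  obtain ⟨u, hu⟩ := h1
  have h2 : Associated x.num a := ⟨u, by
    apply mul_right_cancel₀ hd
    rw [← h, ← hu]; ring⟩
  rw [ratDeg, natDegree_eq_of_associated h2, natDegree_eq_of_associated (a := x.denom) ⟨u, hu⟩]

lemma ratDeg_algebraMap (p : F[X]) :
    ratDeg (algebraMap F[X] (RatFunc F) p) = p.natDegree := by
  rw [ratDeg, RatFunc.num_algebraMap, RatFunc.denom_algebraMap, natDegree_one]
  omega

lemma ratDeg_pow (x : RatFunc F) (n : ℕ) : ratDeg (x ^ n) = n * ratDeg x := by
  conv_lhs => rw [← RatFunc.num_div_denom x, div_pow, ← map_pow, ← map_pow]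
  refine (ratDeg_mkRat (pow_ne_zero _ (RatFunc.denom_ne_zero x))
    ((RatFunc.isCoprime_num_denom x).pow)).trans ?_
  rw [natDegree_pow, natDegree_pow, ratDeg, Nat.mul_max_mul_left]

lemma exists_eq_C_of_ratDeg_eq_zero {x : RatFunc F} (h : ratDeg x = 0) :
    ∃ c : F, x = RatFunc.C c := by
  rw [ratDeg, Nat.max_eq_zero_iff] at h
  refine ⟨x.num.coeff 0 / x.denom.coeff 0, ?_⟩
  conv_lhs => rw [← RatFunc.num_div_denom x, eq_C_of_natDegree_eq_zero h.1,
    eq_C_of_natDegree_eq_zero h.2]
  simp

/-! ### Homogenisation -/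

/-- `v ^ m * a (u / v)`. -/
noncomputable def hsub (m : ℕ) (a u v : F[X]) : F[X] :=
  ∑ i ∈ Finset.range (m + 1), C (a.coeff i) * u ^ i * v ^ (m - i)

/-- The homogenisation of `a` in degree `m`, evaluated through `φ`. -/
noncomputable def heval {L : Type*} [Field L] (φ : F →+* L) (m : ℕ) (a : F[X]) (α β : L) : L :=
  ∑ i ∈ Finset.range (m + 1), φ (a.coeff i) * α ^ i * β ^ (m - i)

lemma heval_of_ne_zero {L : Type*} [Field L] (φ : F →+* L) {m : ℕ} {a : F[X]}
    (ha : a.natDegree ≤ m) (α : L) {β : L} (hβ : β ≠ 0) :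
    heval φ m a α β = β ^ m * a.eval₂ φ (α / β) := by
  rw [eval₂_eq_sum_range' φ (Nat.lt_succ_of_le ha), Finset.mul_sum, heval]
  refine Finset.sum_congr rfl fun i hi => ?_
  have hi' : i ≤ m := Nat.le_of_lt_succ (Finset.mem_range.1 hi)
  rw [div_pow]
  field_simp
  ring_nf; rw [show β ^ m = β ^ i * β ^ (m - i) by rw [← pow_add, Nat.add_sub_cancel' hi']]; ring

lemma heval_zero_right {L : Type*} [Field L] (φ : F →+* L) (m : ℕ) (a : F[X]) (α : L) :
    heval φ m a α 0 = φ (a.coeff m) * α ^ m := by
  rw [heval, Finset.sum_eq_single m]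
  · simp
  · intro i hi hne
    have : i < m := lt_of_le_of_ne (Nat.le_of_lt_succ (Finset.mem_range.1 hi)) hne
    simp [Nat.sub_ne_zero_of_lt this]
  · simp

/-- Coprime homogenisations have no common zero. -/
lemma heval_ne_zero {L : Type*} [Field L] (φ : F →+* L) {a b : F[X]} (hab : IsCoprime a b)
    {α β : L} (hαβ : α ≠ 0 ∨ β ≠ 0) :
    heval φ (max a.natDegree b.natDegree) a α β ≠ 0 ∨
      heval φ (max a.natDegree b.natDegree) b α β ≠ 0 := by
  set m := max a.natDegree b.natDegree with hm
  by_contra! h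
  by_cases hβ : β = 0
  · subst hβ
    have hα : α ≠ 0 := by tauto
    simp only [heval_zero_right, mul_eq_zero, pow_eq_zero_iff', hα, false_and, or_false,
      map_eq_zero] at h
    rcases max_choice a.natDegree b.natDegree with e | e
    · have ha : a = 0 := leadingCoeff_eq_zero.1 (by rw [leadingCoeff, ← e, ← hm]; exact h.1)
      have hb : b.coeff m = 0 := h.2
      obtain ⟨p, q, hpq⟩ := hab
      rw [ha, mul_zero, zero_add] at hpq
      have hb0 : b.natDegree = 0 := natDegree_eq_zero_of_isUnit (IsUnit.of_mul_eq_one_right _ hpq)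
      have hm0 : m = 0 := by rw [hm, ha, hb0]; simp
      rw [hm0, ← hb0] at hb
      simp [leadingCoeff_eq_zero.1 hb] at hpq
    · have hb : b = 0 := leadingCoeff_eq_zero.1 (by rw [leadingCoeff, ← e, ← hm]; exact h.2)
      obtain ⟨p, q, hpq⟩ := hab
      rw [hb, mul_zero, add_zero] at hpq
      have ha0 : a.natDegree = 0 := natDegree_eq_zero_of_isUnit (IsUnit.of_mul_eq_one_right _ hpq)
      have hm0 : m = 0 := by rw [hm, hb, ha0]; simp
      have ha := h.1
      rw [hm0, ← ha0] at ha
      simp [leadingCoeff_eq_zero.1 ha] at hpq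
  · rw [heval_of_ne_zero φ (le_max_left _ _) α hβ, heval_of_ne_zero φ (le_max_right _ _) α hβ] at h
    simp only [mul_eq_zero, pow_eq_zero_iff', hβ, false_and, false_or] at h
    obtain ⟨p, q, hpq⟩ := hab
    simpa [h.1, h.2] using congrArg (eval₂ φ (α / β)) hpq

/-- Degree of a composite of rational functions. -/
theorem hsub_spec {a b u v : F[X]} (hab : IsCoprime a b) (huv : IsCoprime u v) :
    IsCoprime (hsub (max a.natDegree b.natDegree) a u v)
        (hsub (max a.natDegree b.natDegree) b u v) ∧
      max (hsub (max a.natDegree b.natDegree) a u v).natDegree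
        (hsub (max a.natDegree b.natDegree) b u v).natDegree =
          max a.natDegree b.natDegree * max u.natDegree v.natDegree := by
  set m := max a.natDegree b.natDegree with hm
  constructor
  · rw [← Ideal.isCoprime_span_singleton_iff, Ideal.isCoprime_iff_sup_eq]
    by_contra hne
    obtain ⟨M, hM, hle⟩ := Ideal.exists_le_maximal _ hne
    let ρ := Ideal.Quotient.mk M
    let := Ideal.Quotient.field M
    have key : ∀ c : F[X], ρ (hsub m c u v) = heval (ρ.comp C) m c (ρ u) (ρ v) := fun c => by
      simp [hsub, heval, map_sum, map_mul, map_pow]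
    have h1 : ρ (hsub m a u v) = 0 := Ideal.Quotient.eq_zero_iff_mem.2
      (hle (Ideal.mem_sup_left (Ideal.mem_span_singleton_self _)))
    have h2 : ρ (hsub m b u v) = 0 := Ideal.Quotient.eq_zero_iff_mem.2
      (hle (Ideal.mem_sup_right (Ideal.mem_span_singleton_self _)))
    rw [key] at h1 h2
    refine (heval_ne_zero (ρ.comp C) hab (α := ρ u) (β := ρ v) ?_).elim (absurd h1) (absurd h2)
    by_contra! h
    obtain ⟨p, q, hpq⟩ := huv
    simpa [h.1, h.2] using congrArg ρ hpq
  · set h := max u.natDegree v.natDegree with hh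
    have hterm : ∀ c : F[X], ∀ i ∈ Finset.range (m + 1),
        (C (c.coeff i) * u ^ i * v ^ (m - i)).natDegree ≤ m * h ∧
        (C (c.coeff i) * u ^ i * v ^ (m - i)).coeff (m * h) =
          c.coeff i * u.coeff h ^ i * v.coeff h ^ (m - i) := by
      intro c i hi
      have hi' : i ≤ m := Nat.le_of_lt_succ (Finset.mem_range.1 hi)
      have hu : (u ^ i).natDegree ≤ i * h := natDegree_pow_le_of_le i (le_max_left _ _)
      have hv : (v ^ (m - i)).natDegree ≤ (m - i) * h :=
        natDegree_pow_le_of_le (m - i) (le_max_right _ _)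
      have hsum : m * h = i * h + (m - i) * h := by rw [← add_mul, Nat.add_sub_cancel' hi']
      refine ⟨?_, ?_⟩
      · rw [mul_assoc, hsum]
        exact (natDegree_C_mul_le _ _).trans (natDegree_mul_le_of_le hu hv)
      · rw [mul_assoc, coeff_C_mul, hsum, coeff_mul_add_eq_of_natDegree_le hu hv,
          coeff_pow_of_natDegree_le (le_max_left _ _), coeff_pow_of_natDegree_le (le_max_right _ _),
          mul_assoc]
    have hle : ∀ c : F[X], (hsub m c u v).natDegree ≤ m * h := fun c =>
      natDegree_sum_le_of_forall_le _ _ fun i hi => (hterm c i hi).1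
    have hcoeff : ∀ c : F[X], (hsub m c u v).coeff (m * h) =
        heval (RingHom.id F) m c (u.coeff h) (v.coeff h) := fun c => by
      rw [hsub, finsetSum_coeff]
      exact Finset.sum_congr rfl fun i hi => by rw [(hterm c i hi).2]; rfl
    have hne : u.coeff h ≠ 0 ∨ v.coeff h ≠ 0 := by
      by_contra! e
      obtain ⟨p, q, hpq⟩ := huv
      rcases max_choice u.natDegree v.natDegree with e' | e'
      · have hu0 : u = 0 := leadingCoeff_eq_zero.1 (by rw [leadingCoeff, ← e', ← hh]; exact e.1)
        rw [hu0, mul_zero, zero_add] at hpq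
        have hv0 : v.natDegree = 0 :=
          natDegree_eq_zero_of_isUnit (IsUnit.of_mul_eq_one_right _ hpq)
        have hv := e.2
        rw [hh, hu0, hv0, natDegree_zero, max_self, ← hv0] at hv
        simp [leadingCoeff_eq_zero.1 hv] at hpq
      · have hv0 : v = 0 := leadingCoeff_eq_zero.1 (by rw [leadingCoeff, ← e', ← hh]; exact e.2)
        rw [hv0, mul_zero, add_zero] at hpq
        have hu0 : u.natDegree = 0 :=
          natDegree_eq_zero_of_isUnit (IsUnit.of_mul_eq_one_right _ hpq)
        have hu := e.1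
        rw [hh, hv0, hu0, natDegree_zero, max_self, ← hu0] at hu
        simp [leadingCoeff_eq_zero.1 hu] at hpq
    refine le_antisymm (max_le (hle a) (hle b)) ?_
    rcases heval_ne_zero (RingHom.id F) hab hne with e | e
    · exact le_max_of_le_left (le_natDegree_of_ne_zero (by rw [hcoeff]; exact e))
    · exact le_max_of_le_right (le_natDegree_of_ne_zero (by rw [hcoeff]; exact e))

lemma map_hsub_eq (x : RatFunc F) {m : ℕ} {c : F[X]} (hc : c.natDegree ≤ m) :
    algebraMap F[X] (RatFunc F) (hsub m c x.num x.denom) =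
      algebraMap F[X] (RatFunc F) x.denom ^ m * aeval x c := by
  have h := heval_of_ne_zero (algebraMap F (RatFunc F)) hc (algebraMap F[X] (RatFunc F) x.num)
    (algebraMap_ne_zero_iff.2 x.denom_ne_zero)
  rw [RatFunc.num_div_denom, ← aeval_def] at h
  rw [← h, hsub, heval, map_sum]
  refine Finset.sum_congr rfl fun i _ => ?_
  simp only [map_mul, map_pow]
  rfl

lemma aeval_ne_zero_of_ratDeg_ne_zero {x : RatFunc F} (hx : ratDeg x ≠ 0) {p : F[X]} (hp : p ≠ 0) :
    aeval x p ≠ 0 := by
  intro h0
  obtain ⟨hco, hdeg⟩ := hsub_spec (isCoprime_one_right (x := p)) (RatFunc.isCoprime_num_denom x)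
  simp only [natDegree_one, Nat.max_zero] at hco hdeg
  have hz : hsub p.natDegree p x.num x.denom = 0 := RatFunc.algebraMap_injective F <| by
    rw [map_hsub_eq x le_rfl, h0, mul_zero, map_zero]
  rw [hz] at hco hdeg
  rw [isCoprime_zero_left] at hco
  rw [natDegree_zero, natDegree_eq_zero_of_isUnit hco, max_self] at hdeg
  rcases Nat.mul_eq_zero.1 hdeg.symm with e | e
  · rw [eq_C_of_natDegree_eq_zero e, aeval_C, map_eq_zero] at h0
    exact hp (by rw [eq_C_of_natDegree_eq_zero e, h0, C_0])
  · exact hx e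

/-- `ratDeg` is multiplicative under composition. -/
theorem ratDeg_comp {x : RatFunc F} (hx : ratDeg x ≠ 0) {a b : F[X]} (hb : b ≠ 0)
    (hab : IsCoprime a b) :
    ratDeg (aeval x a / aeval x b) = max a.natDegree b.natDegree * ratDeg x := by
  obtain ⟨hco, hdeg⟩ := hsub_spec hab (RatFunc.isCoprime_num_denom x)
  set m := max a.natDegree b.natDegree with hm
  have hne : hsub m b x.num x.denom ≠ 0 := fun e => by
    have := map_hsub_eq x (c := b) (le_max_right a.natDegree _)
    rw [← hm, e, map_zero, eq_comm, mul_eq_zero] at this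
    exact this.elim (fun h => algebraMap_ne_zero_iff.2 x.denom_ne_zero (eq_zero_of_pow_eq_zero h))
      (aeval_ne_zero_of_ratDeg_ne_zero hx hb)
  have : aeval x a / aeval x b = mkRat (hsub m a x.num x.denom) (hsub m b x.num x.denom) := by
    rw [mkRat, map_hsub_eq x (le_max_left _ _), map_hsub_eq x (le_max_right _ _),
      mul_div_mul_left _ _ (pow_ne_zero _ (algebraMap_ne_zero_iff.2 x.denom_ne_zero))]
  rw [this, ratDeg_mkRat hne hco, hdeg]
  rfl

/-! ### Triples -/

/-- The degree of a triple of polynomials. -/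
noncomputable def tdeg (T : Fin 3 → F[X]) : ℕ :=
  max (T 0).natDegree (max (T 1).natDegree (T 2).natDegree)

/-- A triple without common zero. -/
def Prim3 (T : Fin 3 → F[X]) : Prop := Ideal.span (Set.range T) = ⊤

lemma natDegree_le_tdeg (T : Fin 3 → F[X]) (i : Fin 3) : (T i).natDegree ≤ tdeg T := by
  fin_cases i <;> simp [tdeg]

lemma tdeg_eq_of_coeff_ne_zero {T : Fin 3 → F[X]} {m : ℕ} (h : ∀ i, (T i).natDegree ≤ m)
    (h' : (fun i => (T i).coeff m) ≠ 0) : tdeg T = m := by
  refine le_antisymm (max_le (h 0) (max_le (h 1) (h 2))) ?_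
  obtain ⟨i, hi⟩ := Function.ne_iff.1 h'
  exact (le_natDegree_of_ne_zero hi).trans (natDegree_le_tdeg T i)

/-- Proportional primitive triples have the same degree. -/
theorem tdeg_eq_of_proportional {T T' : Fin 3 → F[X]} (hT : Prim3 T) (hT' : Prim3 T')
    (μ : RatFunc F) (h : ∀ i, algebraMap F[X] (RatFunc F) (T i) =
      μ * algebraMap F[X] (RatFunc F) (T' i)) : tdeg T = tdeg T' := by
  set c := μ.denom
  set d := μ.num
  have hc : c ≠ 0 := μ.denom_ne_zero
  have hcd : ∀ i, c * T i = d * T' i := fun i => RatFunc.algebraMap_injective F <| by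
    have hh : algebraMap F[X] (RatFunc F) c * μ = algebraMap F[X] (RatFunc F) d := by
      rw [mul_comm]
      nth_rewrite 1 [← μ.num_div_denom]
      exact div_mul_cancel₀ _ (algebraMap_ne_zero_iff.2 hc)
    rw [map_mul, map_mul, h, ← mul_assoc, hh]
  have key : ∀ (U U' : Fin 3 → F[X]) (e e' : F[X]), Prim3 U →
      (∀ i, e * U i = e' * U' i) → e' ∣ e := by
    intro U U' e e' hU hh
    have : (1 : F[X]) ∈ Ideal.span (Set.range U) := by rw [hU]; trivial
    rw [Ideal.mem_span_range_iff_exists_fun] at this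
    obtain ⟨r, hr⟩ := this
    refine ⟨∑ i, r i * U' i, ?_⟩
    rw [Finset.mul_sum, ← mul_one e, ← hr, Finset.mul_sum]
    exact Finset.sum_congr rfl fun i _ => by linear_combination r i * hh i
  obtain ⟨w, hw⟩ := associated_of_dvd_dvd (key T T' c d hT hcd) (key T' T d c hT' fun i => (hcd i).symm)
  have hd : d ≠ 0 := fun e => hc (by rw [← hw, e, zero_mul])
  have hdeg : ∀ i, (T i).natDegree = (T' i).natDegree := fun i =>
    (natDegree_eq_of_associated (b := T i) ⟨w⁻¹, by
      apply mul_left_cancel₀ hd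
      rw [← mul_assoc, ← hcd i, ← hw, show d * (w : F[X]) * T i * ((w⁻¹ : (F[X])ˣ) : F[X]) =
        d * T i * ((w : F[X]) * ((w⁻¹ : (F[X])ˣ) : F[X])) by ring, Units.mul_inv, mul_one]⟩).symm.trans rfl
  simp only [tdeg, hdeg]

end FermatAgent.Hasse
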